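/-
G1-V / G1-INERT (helper4): the characteristic-0 inputs (statements only; analytic proofs
elsewhere).  `x_u = xgen M u`, `β = qExpand ℚ ℓ`.

* `H2 M`   : a polynomial expression in the `x_u` which is invariant under simultaneous
  translation of the indices by `(ℤ/M)ˣ` lies in `F0(M)`;
* `H3 M ℓ` : the same for expressions in the `x_u` and the `β x_u`, with values in `F0(M ℓ)`;
* `H4 M N ℓ e L` : the Atkin–Lehner involution `W` of `L·F0(N ℓ)` (`M ∣ N`, `ℓ ∤ N`) maps such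
  an expression `Ψ(x, β x)` to `Ψ(β x, x_{· e})`, `e = ℓ^{±1}` (the twisted involution
  `W² = ⟨ℓ⟩^{±1}` on `X(Γ1(M) ∩ Γ0(N ℓ))`).
-/
import Mathlib
import Fermat.Agent.G1.Gen
import Fermat.Prelude.Def_ModularCurve_HeckeOperator

set_option autoImplicit false

namespace Fermat.Agent.G1.V

open ModularCurve HahnSeries

/-- **(H2)** diamond-invariant expressions in the `x_u` lie in `F0(M)`. -/
def H2 (M : ℕ) [NeZero M] : Prop :=
  ∀ Ψ : MvPolynomial (ZMod M)ˣ ℚ,
    (∀ c : (ZMod M)ˣ, MvPolynomial.rename (fun u => c * u) Ψ = Ψ) →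
    MvPolynomial.aeval (xgen M) Ψ ∈ modularFunctionFieldFull M

/-- **(H3)** diamond-invariant expressions in the `x_u` and the `x_u(q^ℓ)` lie in `F0(M ℓ)`. -/
def H3 (M ℓ : ℕ) [NeZero M] [NeZero ℓ] : Prop :=
  ∀ Ψ : MvPolynomial ((ZMod M)ˣ ⊕ (ZMod M)ˣ) ℚ,
    (∀ c : (ZMod M)ˣ,
      MvPolynomial.rename (Sum.map (fun u => c * u) (fun u => c * u)) Ψ = Ψ) →
    MvPolynomial.aeval (Sum.elim (xgen M) (fun u => qExpand ℚ ℓ (xgen M u))) Ψ ∈
      modularFunctionFieldFull (M * ℓ)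

/-- **(H4)** the Atkin–Lehner involution on diamond-invariant expressions: `W` (any ring
endomorphism of `L·F0(N ℓ)` exchanging the two degeneracy maps) sends `Ψ(x, β x)` to
`Ψ(β x, x_{· e})`. -/
def H4 (M N ℓ : ℕ) [NeZero M] [NeZero N] [NeZero ℓ] (e : (ZMod M)ˣ)
    (L : Type*) [Field L] [Algebra ℚ L] : Prop :=
  ∀ W : laurentBaseChange L (modularFunctionFieldFull (N * ℓ)) →+*
      laurentBaseChange L (modularFunctionFieldFull (N * ℓ)),
    (∀ x, W (heckeAlphaBar L N ℓ x) = heckeBetaBar L N ℓ x) →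
    (∀ x, W (heckeBetaBar L N ℓ x) = heckeAlphaBar L N ℓ x) →
    ∀ Ψ : MvPolynomial ((ZMod M)ˣ ⊕ (ZMod M)ˣ) ℚ,
      (∀ c : (ZMod M)ˣ,
        MvPolynomial.rename (Sum.map (fun u => c * u) (fun u => c * u)) Ψ = Ψ) →
      ∀ y : laurentBaseChange L (modularFunctionFieldFull (N * ℓ)),
        (y : LaurentSeries L) = coeffEmb L
          (MvPolynomial.aeval (Sum.elim (xgen M) (fun u => qExpand ℚ ℓ (xgen M u))) Ψ) →
        (W y : LaurentSeries L) = coeffEmb L
          (MvPolynomial.aeval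
            (Sum.elim (fun u => qExpand ℚ ℓ (xgen M u)) (fun u => xgen M (u * e))) Ψ)

end Fermat.Agent.G1.V
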