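/-
G1-V / G1-INERT (helper4): interface statements (definitions only).

`x = x_1 = xgen M 1` is the primitive element of `F1(M)` over `F0(M)`; its conjugates are the
`x_u`, `u ∈ (ℤ/M)ˣ/±1` (`DG M`), `n = degX M` of them.

* `DegRel M`   : `x^n ∈ ∑_{j<n} F0(M) x^j` (characteristic `0`; input `hdeg` of `GoodV.step`);
* `DiaRel M`   : every `x_u` lies in `F0(M)(x)` (characteristic `0`);
* `Inert k M N`: `1, x̄, …, x̄^(n-1)` are linearly independent over the mod-`p` function field of
  `X_0(N)` (input `hind` of `GoodV.step`; = irreducibility of `X(Γ1(M) ∩ Γ0(N))` mod `p`);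
* `DiaRelC k M`: every `x̄_u` lies in `F0(M)~(x̄)` (characteristic `p`).
-/
import Mathlib
import Fermat.Agent.G1.Gen
import Fermat.Prelude.Def_ModularCurve_ReductionModL

set_option autoImplicit false

namespace Fermat.Agent.G1.V

open ModularCurve HahnSeries

/-- The diamond index group `(ℤ/M)ˣ/±1`. -/
abbrev DG (M : ℕ) : Type := (ZMod M)ˣ ⧸ Subgroup.zpowers (-1 : (ZMod M)ˣ)

/-- The number of conjugates of `x_1` (`= φ(M)/2` for `M ≥ 3`). -/
noncomputable def degX (M : ℕ) : ℕ := Nat.card (DG M)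

/-- **DEG**: the degree relation of `x = x_1` over `F0(M)` in characteristic `0`. -/
def DegRel (M : ℕ) [NeZero M] : Prop :=
  ∃ a : Fin (degX M) → LaurentSeries ℚ, (∀ j, a j ∈ modularFunctionFieldFull M) ∧
    xgen M 1 ^ degX M = ∑ j, a j * xgen M 1 ^ (j : ℕ)

/-- **DIA**: the conjugates of `x_1` are polynomials in `x_1` over `F0(M)`. -/
def DiaRel (M : ℕ) [NeZero M] : Prop :=
  ∀ u : (ZMod M)ˣ, xgen M u ∈ IntermediateField.adjoin ℚ
    ((modularFunctionFieldFull M : Set (LaurentSeries ℚ)) ∪ {xgen M 1})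

/-- **INERT**: `1, x̄, …, x̄^(n-1)` are linearly independent over the mod-`p` function field of
`X_0(N)`. -/
def Inert (k : Type) [Field k] (M N : ℕ) [NeZero M] [NeZero N] : Prop :=
  ∀ c : Fin (degX M) → LaurentSeries k, (∀ j, c j ∈ modularFunctionFieldFullC k N) →
    ∑ j, c j * xgenR k M 1 ^ (j : ℕ) = 0 → ∀ j, c j = 0

/-- **DIA mod p**: the conjugates of `x̄_1` are polynomials in `x̄_1` over `F0(M)~`. -/
def DiaRelC (k : Type) [Field k] (M : ℕ) [NeZero M] : Prop :=
  ∀ u : (ZMod M)ˣ, xgenR k M (u : ZMod M) ∈ IntermediateField.adjoin k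
    ((modularFunctionFieldFullC k M : Set (LaurentSeries k)) ∪ {xgenR k M 1})

end Fermat.Agent.G1.V
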