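/-
G1-V (helper80): abstract packaging of one step `F ⊆ F' = F(x)` of the Gauss-valuation tower.

Setting (`Lib/Red/GaussTower`): `A` a valuation subring of the constant field `L`, `π : A →+* k`,
`F ≤ F'` intermediate fields of `L((q))`, `κ ≤ κ'` intermediate fields of `k((q))` with
`GoodV A π F κ` and `GoodV A π F' κ'`, `X` an `A`-integral series with `F' = F(X)`,
`κ' = κ(X̄)`, `X^n ∈ ∑_{t<n} F X^t` and `1, X̄, …, X̄^(n-1)` independent over `κ`.

* `algOfLE`            : the algebra structure `↥E → ↥E'` of an inclusion of intermediate fields;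
* `IsGaussPair`        : `(O₀, red₀)` is the Gauss valuation ring of `F` with its residue map;
* `compat`, `goodBasis`: the `Ortho.Compat` / `Ortho.GoodBasis` terms of
  `(gaussVS hG', gaussRed hπ hG')` over `(O₀, red₀)`, with basis `X^t`, `t < n`;
* `step_span`, `step_degκ`, `step_spanκ`, `gaussRed_surjective`, `stepGoodBasis`;
* `isSeparable_step`   : `κ(x̄)/κ` is separable if `x̄` kills a separable polynomial over `κ`;
* `ringHom_mem`, `ringHom_red_ne_zero` : every ring endomorphism of `F'` fixing `F` preserves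
  the Gauss valuation ring of `F'` and its units ("the diamonds are integral").
-/
import Mathlib
import Fermat.Agent.Lib.Red.GaussTower
import Fermat.Agent.Lib.Red.Ortho
import Fermat.Agent.BAD.TwoVal.Pair

set_option autoImplicit false
set_option linter.style.haveILetI false

namespace Fermat.Agent.G1.V.PackAbs

open HahnSeries ModularCurve Polynomial
open Fermat.Agent.Lib.Red Fermat.Agent.BAD.TwoVal

noncomputable section

/-! ### Inclusions of intermediate fields as algebras -/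

section Alg

variable {K Ω : Type*} [Field K] [Field Ω] [Algebra K Ω] {E E' : IntermediateField K Ω}

/-- The algebra structure of a larger intermediate field over a smaller one. -/
@[reducible] def algOfLE (h : E ≤ E') : Algebra ↥E ↥E' :=
  (IntermediateField.inclusion h).toRingHom.toAlgebra

theorem coe_algebraMap_algOfLE (h : E ≤ E') (x : E) :
    ((@algebraMap ↥E ↥E' _ _ (algOfLE h) x : E') : Ω) = (x : Ω) := rfl

theorem isScalarTower_algOfLE (h : E ≤ E') :
    @IsScalarTower K ↥E ↥E' _ (algOfLE h).toSMul _ := by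
  let _ := algOfLE h
  exact IsScalarTower.of_algebraMap_eq (fun x => rfl)

/-- Representation of the elements of `E(x)` by polynomials of degree `< n` in `x`. -/
theorem step_span (E : IntermediateField K Ω) (x : Ω) {n : ℕ}
    (hdeg : ∃ a : Fin n → Ω, (∀ t, a t ∈ E) ∧ x ^ n = ∑ t, a t * x ^ (t : ℕ)) :
    ∀ y ∈ IntermediateField.adjoin K ((E : Set Ω) ∪ {x}),
      ∃ c : Fin n → Ω, (∀ t, c t ∈ E) ∧ y = ∑ t, c t * x ^ (t : ℕ) := by
  intro y hy
  have hy' : y ∈ Subfield.closure ((E.toSubfield : Set Ω) ∪ {x}) := by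
    rw [closure_union_eq_adjoin']
    exact hy
  exact Fermat.Agent.S28.Tower.exists_repr (F := E.toSubfield) hdeg hy'

/-- `E(x)/E` is separable if `x` kills a separable polynomial over `E`. -/
theorem isSeparable_step {x : Ω}
    (hE' : E' = IntermediateField.adjoin K ((E : Set Ω) ∪ {x}))
    (hle : E ≤ E') (Q : Polynomial ↥E) (hQ : Q.Separable)
    (hQx : Polynomial.aeval x Q = 0) :
    @Algebra.IsSeparable ↥E ↥E' _ _ (algOfLE hle) := by
  letI := algOfLE hle
  have hx : IsSeparable ↥E x := hQ.of_dvd (minpoly.dvd ↥E x hQx)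
  haveI : Algebra.IsSeparable ↥E ↥(IntermediateField.adjoin ↥E ({x} : Set Ω)) :=
    (IntermediateField.isSeparable_adjoin_simple_iff_isSeparable ↥E Ω).mpr hx
  have hmem' : ∀ w : Ω, w ∈ E' → w ∈ IntermediateField.adjoin ↥E ({x} : Set Ω) := by
    intro w hw
    rw [hE', ← IntermediateField.restrictScalars_adjoin] at hw
    exact hw
  have hmem : ∀ z : E', (z : Ω) ∈ IntermediateField.adjoin ↥E ({x} : Set Ω) :=
    fun z => hmem' z z.2
  let f : ↥E' →ₐ[↥E] ↥(IntermediateField.adjoin ↥E ({x} : Set Ω)) :=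
    { toFun := fun z => ⟨(z : Ω), hmem z⟩
      map_one' := rfl
      map_mul' := fun _ _ => rfl
      map_zero' := rfl
      map_add' := fun _ _ => rfl
      commutes' := fun _ => rfl }
  exact Algebra.IsSeparable.of_algHom ↥E ↥(IntermediateField.adjoin ↥E ({x} : Set Ω)) f

end Alg

variable {L : Type*} [Field L] {A : ValuationSubring L} {k : Type*} [Field k] {π : A →+* k}
  {F F' : IntermediateField L (LaurentSeries L)} {κ κ' : IntermediateField k (LaurentSeries k)}

/-- The residue of a power of an integral series. -/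
theorem red_incl_pow (X : LaurentSeries A) (t : ℕ) (h : incl A X ^ t ∈ gaussRing A π) :
    red A π ⟨incl A X ^ t, h⟩ = rbar A π X ^ t := by
  have e : (⟨incl A X ^ t, h⟩ : gaussRing A π) = ⟨incl A (X ^ t), incl_mem_gaussRing A π _⟩ :=
    Subtype.ext (map_pow _ _ _).symm
  rw [e, red_incl, map_pow]

theorem incl_pow_mem (X : LaurentSeries A) (t : ℕ) : incl A X ^ t ∈ gaussRing A π :=
  pow_mem (incl_mem_gaussRing A π X) t

/-- `(O₀, red₀)` is the Gauss valuation ring of `F` with its residue map into `κ`. -/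
structure IsGaussPair (A : ValuationSubring L) (π : A →+* k)
    (F : IntermediateField L (LaurentSeries L)) (κ : IntermediateField k (LaurentSeries k))
    (O₀ : ValuationSubring ↥F) (red₀ : O₀ →+* ↥κ) : Prop where
  mem_iff : ∀ f : F, f ∈ O₀ ↔ (f : LaurentSeries L) ∈ gaussRing A π
  coe_red : ∀ (f : F) (hf : f ∈ O₀) (hf' : (f : LaurentSeries L) ∈ gaussRing A π),
    ((red₀ ⟨f, hf⟩ : κ) : LaurentSeries k) = red A π ⟨(f : LaurentSeries L), hf'⟩

theorem isGaussPair_gaussVS (hπ : ∀ a : A, ¬ IsUnit a → π a = 0) (hG : GoodV A π F κ) :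
    IsGaussPair A π F κ (gaussVS hG) (gaussRed hπ hG) :=
  ⟨fun _ => Iff.rfl, fun _ _ _ => rfl⟩

/-! ### Compatibility and the good basis -/

/-- Compatibility of the Gauss valuation rings of `F ≤ F'`. -/
theorem compat (hπ : ∀ a : A, ¬ IsUnit a → π a = 0) (hG' : GoodV A π F' κ') (hle : F ≤ F')
    (hκle : κ ≤ κ') {O₀ : ValuationSubring ↥F} {red₀ : O₀ →+* ↥κ}
    (h₀ : IsGaussPair A π F κ O₀ red₀) :
    letI := algOfLE hle
    letI := algOfLE hκle
    Ortho.Compat (gaussVS hG') (gaussRed hπ hG') O₀ red₀ := by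
  letI := algOfLE hle
  letI := algOfLE hκle
  refine ⟨gaussRed_eq_zero_iff hπ hG', fun c => h₀.mem_iff c, fun c hc => ?_⟩
  apply Subtype.ext
  rw [coe_gaussRed_mk]
  exact (h₀.coe_red (c : F) c.2 hc).symm

/-- The family `X^t`, `t < n`, in the Gauss valuation ring of `F'`. -/
def powFam (hG' : GoodV A π F' κ') (X : LaurentSeries A) (hX : incl A X ∈ F') (n : ℕ) :
    Fin n → gaussVS hG' :=
  fun t => ⟨⟨incl A X ^ (t : ℕ), pow_mem hX _⟩, incl_pow_mem X _⟩

theorem coe_powFam (hG' : GoodV A π F' κ') (X : LaurentSeries A) (hX : incl A X ∈ F') (n : ℕ)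
    (t : Fin n) : (((powFam hG' X hX n t : gaussVS hG') : F') : LaurentSeries L) =
      incl A X ^ (t : ℕ) := rfl

theorem coe_gaussRed_powFam (hπ : ∀ a : A, ¬ IsUnit a → π a = 0) (hG' : GoodV A π F' κ')
    (X : LaurentSeries A) (hX : incl A X ∈ F') (n : ℕ) (t : Fin n) :
    ((gaussRed hπ hG' (powFam hG' X hX n t) : κ') : LaurentSeries k) = rbar A π X ^ (t : ℕ) := by
  rw [coe_gaussRed]
  exact red_incl_pow X _ _

/-- **The good basis** `1, X, …, X^(n-1)` of `F'` over `F`. -/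
def goodBasis (hπ : ∀ a : A, ¬ IsUnit a → π a = 0) (hG' : GoodV A π F' κ') (hle : F ≤ F')
    (hκle : κ ≤ κ') {O₀ : ValuationSubring ↥F} {red₀ : O₀ →+* ↥κ}
    (h₀ : IsGaussPair A π F κ O₀ red₀) (X : LaurentSeries A) (hX : incl A X ∈ F') {n : ℕ}
    (hind : ∀ c : Fin n → LaurentSeries k, (∀ t, c t ∈ κ) →
      ∑ t, c t * rbar A π X ^ (t : ℕ) = 0 → ∀ t, c t = 0)
    (hspan : ∀ y ∈ F', ∃ c : Fin n → LaurentSeries L, (∀ t, c t ∈ F) ∧
      y = ∑ t, c t * incl A X ^ (t : ℕ))
    (hsurj : Function.Surjective (gaussRed hπ hG')) :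
    letI := algOfLE hle
    letI := algOfLE hκle
    Ortho.GoodBasis (gaussVS hG') (gaussRed hπ hG') O₀ red₀ (Fin n) :=
  letI := algOfLE hle
  letI := algOfLE hκle
  { compat := compat hπ hG' hle hκle h₀
    surj := hsurj
    b := powFam hG' X hX n
    ind := by
      rw [Fintype.linearIndependent_iff]
      intro g hg t
      have h1 : ∑ t, ((g t : κ) : LaurentSeries k) * rbar A π X ^ (t : ℕ) = 0 := by
        have h2 := congrArg (fun z : κ' => (z : LaurentSeries k)) hg
        simp only [ZeroMemClass.coe_zero] at h2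
        rw [← h2]
        have h3 : ((∑ t, g t • gaussRed hπ hG' (powFam hG' X hX n t) : κ') : LaurentSeries k) =
            ∑ t, ((g t • gaussRed hπ hG' (powFam hG' X hX n t) : κ') : LaurentSeries k) :=
          map_sum κ'.val _ _
        rw [h3]
        refine Finset.sum_congr rfl fun t _ => ?_
        rw [← coe_gaussRed_powFam hπ hG' X hX n t]
        rfl
      exact Subtype.ext (hind (fun t => ((g t : κ) : LaurentSeries k)) (fun t => (g t).2) h1 t)
    span := by
      intro y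
      obtain ⟨c, hc, hy⟩ := hspan (y : LaurentSeries L) y.2
      refine ⟨fun t => ⟨c t, hc t⟩, Subtype.ext ?_⟩
      rw [hy]
      have h3 : ((∑ t, algebraMap ↥F ↥F' ⟨c t, hc t⟩ *
          ((powFam hG' X hX n t : gaussVS hG') : F') : F') : LaurentSeries L) =
          ∑ t, ((algebraMap ↥F ↥F' ⟨c t, hc t⟩ *
          ((powFam hG' X hX n t : gaussVS hG') : F') : F') : LaurentSeries L) :=
        map_sum F'.val _ _
      rw [h3]
      rfl }

/-! ### Surjectivity of the residue map of `F'` -/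

/-- The residue map of `F'` is onto `κ'` as soon as the residue map of `F` is onto `κ` and the
powers of `X̄` span `κ'` over `κ`. -/
theorem gaussRed_surjective (hπ : ∀ a : A, ¬ IsUnit a → π a = 0) (hG' : GoodV A π F' κ')
    (hle : F ≤ F') {O₀ : ValuationSubring ↥F} {red₀ : O₀ →+* ↥κ}
    (h₀ : IsGaussPair A π F κ O₀ red₀) (hsurj₀ : Function.Surjective red₀)
    (X : LaurentSeries A) (hX : incl A X ∈ F') {n : ℕ}
    (hspanκ : ∀ z ∈ κ', ∃ d : Fin n → LaurentSeries k, (∀ t, d t ∈ κ) ∧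
      z = ∑ t, d t * rbar A π X ^ (t : ℕ)) :
    Function.Surjective (gaussRed hπ hG') := by
  intro z
  obtain ⟨d, hd, hz⟩ := hspanκ (z : LaurentSeries k) z.2
  choose c hc using fun t => hsurj₀ ⟨d t, hd t⟩
  have hcg : ∀ t, (((c t : O₀) : F) : LaurentSeries L) ∈ gaussRing A π :=
    fun t => (h₀.mem_iff _).mp (c t).2
  have hred : ∀ t, red A π ⟨(((c t : O₀) : F) : LaurentSeries L), hcg t⟩ = d t := by
    intro t
    rw [← h₀.coe_red ((c t : O₀) : F) (c t).2 (hcg t)]
    have : (⟨((c t : O₀) : F), (c t).2⟩ : O₀) = c t := rfl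
    rw [this, hc t]
  set y : gaussRing A π := ∑ t, (⟨_, hcg t⟩ : gaussRing A π) * ⟨incl A X ^ (t : ℕ),
    incl_pow_mem X _⟩ with hy
  have hyv : (y : LaurentSeries L) =
      ∑ t, (((c t : O₀) : F) : LaurentSeries L) * incl A X ^ (t : ℕ) := by
    rw [hy]
    exact map_sum (gaussRing A π).subtype _ _
  have hyF' : (y : LaurentSeries L) ∈ F' := by
    rw [hyv]
    exact F'.sum_mem fun t _ => F'.mul_mem (hle ((c t : O₀) : F).2) (pow_mem hX _)
  have hyO : (⟨(y : LaurentSeries L), hyF'⟩ : F') ∈ gaussVS hG' := y.2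
  refine ⟨⟨⟨(y : LaurentSeries L), hyF'⟩, hyO⟩, Subtype.ext ?_⟩
  rw [coe_gaussRed_mk, hz]
  have e : (⟨(y : LaurentSeries L), hyO⟩ : gaussRing A π) = y := rfl
  rw [e, hy, map_sum]
  refine Finset.sum_congr rfl fun t _ => ?_
  rw [map_mul, red_incl_pow, hred t]

/-! ### The step fields -/

/-- The reduction of the degree relation. -/
theorem step_degκ (hπ : ∀ a : A, ¬ IsUnit a → π a = 0) (h : GoodV A π F κ)
    (X : LaurentSeries A) {n : ℕ}
    (hdeg : ∃ a : Fin n → LaurentSeries L, (∀ t, a t ∈ F) ∧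
      incl A X ^ n = ∑ t, a t * incl A X ^ (t : ℕ))
    (hind : ∀ c : Fin n → LaurentSeries k, (∀ t, c t ∈ κ) →
      ∑ t, c t * rbar A π X ^ (t : ℕ) = 0 → ∀ t, c t = 0) :
    ∃ a : Fin n → LaurentSeries k, (∀ t, a t ∈ κ) ∧
      rbar A π X ^ n = ∑ t, a t * rbar A π X ^ (t : ℕ) := by
  obtain ⟨a, haF, ha⟩ := hdeg
  have hmem : ∑ t, a t * incl A X ^ (t : ℕ) ∈ gaussRing A π := by
    rw [← ha]
    exact incl_pow_mem X n
  have hag := h.coeff_mem hπ X hind a haF hmem
  refine ⟨fun t => red A π ⟨a t, hag t⟩, fun t => h.red_mem hπ ⟨a t, hag t⟩ (haF t), ?_⟩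
  have e : (⟨incl A X ^ n, incl_pow_mem X n⟩ : gaussRing A π) =
      ∑ t, (⟨a t, hag t⟩ : gaussRing A π) * ⟨incl A X ^ (t : ℕ), incl_pow_mem X _⟩ := by
    apply Subtype.ext
    have h3 : ((∑ t, (⟨a t, hag t⟩ : gaussRing A π) * ⟨incl A X ^ (t : ℕ),
        incl_pow_mem X _⟩ : gaussRing A π) : LaurentSeries L) =
        ∑ t, a t * incl A X ^ (t : ℕ) := map_sum (gaussRing A π).subtype _ _
    rw [h3]
    exact ha
  have h4 := congrArg (red A π) e
  rw [red_incl_pow, map_sum] at h4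
  rw [h4]
  exact Finset.sum_congr rfl fun t _ => by rw [map_mul, red_incl_pow]

/-- The powers of `X̄` span `κ(X̄)` over `κ`. -/
theorem step_spanκ (hπ : ∀ a : A, ¬ IsUnit a → π a = 0) (h : GoodV A π F κ)
    (X : LaurentSeries A) {n : ℕ}
    (hdeg : ∃ a : Fin n → LaurentSeries L, (∀ t, a t ∈ F) ∧
      incl A X ^ n = ∑ t, a t * incl A X ^ (t : ℕ))
    (hind : ∀ c : Fin n → LaurentSeries k, (∀ t, c t ∈ κ) →
      ∑ t, c t * rbar A π X ^ (t : ℕ) = 0 → ∀ t, c t = 0)
    (hκ' : κ' = IntermediateField.adjoin k ((κ : Set (LaurentSeries k)) ∪ {rbar A π X})) :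
    ∀ z ∈ κ', ∃ d : Fin n → LaurentSeries k, (∀ t, d t ∈ κ) ∧
      z = ∑ t, d t * rbar A π X ^ (t : ℕ) := by
  intro z hz
  rw [hκ'] at hz
  exact step_span κ (rbar A π X) (step_degκ hπ h X hdeg hind) z hz

/-- `GoodV` for the step fields (transported along equalities). -/
theorem goodV_of_step (h : GoodV A π F κ) (X : LaurentSeries A) {n : ℕ}
    (hdeg : ∃ a : Fin n → LaurentSeries L, (∀ t, a t ∈ F) ∧
      incl A X ^ n = ∑ t, a t * incl A X ^ (t : ℕ))
    (hind : ∀ c : Fin n → LaurentSeries k, (∀ t, c t ∈ κ) →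
      ∑ t, c t * rbar A π X ^ (t : ℕ) = 0 → ∀ t, c t = 0)
    (hF' : F' = IntermediateField.adjoin L ((F : Set (LaurentSeries L)) ∪ {incl A X}))
    (hκ' : κ' = IntermediateField.adjoin k ((κ : Set (LaurentSeries k)) ∪ {rbar A π X})) :
    GoodV A π F' κ' := by
  rw [hF', hκ']
  exact h.step X hdeg hind

/-- **The good basis of a step** `F' = F(X)`, `κ' = κ(X̄)`. -/
def stepGoodBasis (hπ : ∀ a : A, ¬ IsUnit a → π a = 0) (h : GoodV A π F κ)
    {O₀ : ValuationSubring ↥F} {red₀ : O₀ →+* ↥κ} (h₀ : IsGaussPair A π F κ O₀ red₀)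
    (hsurj₀ : Function.Surjective red₀) (X : LaurentSeries A) {n : ℕ}
    (hdeg : ∃ a : Fin n → LaurentSeries L, (∀ t, a t ∈ F) ∧
      incl A X ^ n = ∑ t, a t * incl A X ^ (t : ℕ))
    (hind : ∀ c : Fin n → LaurentSeries k, (∀ t, c t ∈ κ) →
      ∑ t, c t * rbar A π X ^ (t : ℕ) = 0 → ∀ t, c t = 0)
    (hF' : F' = IntermediateField.adjoin L ((F : Set (LaurentSeries L)) ∪ {incl A X}))
    (hκ' : κ' = IntermediateField.adjoin k ((κ : Set (LaurentSeries k)) ∪ {rbar A π X}))
    (hG' : GoodV A π F' κ') (hle : F ≤ F') (hκle : κ ≤ κ') :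
    letI := algOfLE hle
    letI := algOfLE hκle
    Ortho.GoodBasis (gaussVS hG') (gaussRed hπ hG') O₀ red₀ (Fin n) :=
  have hX : incl A X ∈ F' := by
    rw [hF']
    exact IntermediateField.subset_adjoin L _ (Or.inr rfl)
  goodBasis hπ hG' hle hκle h₀ X hX hind
    (by
      intro y hy
      rw [hF'] at hy
      exact step_span F (incl A X) hdeg y hy)
    (gaussRed_surjective hπ hG' hle h₀ hsurj₀ X hX (step_spanκ hπ h X hdeg hind hκ'))

/-! ### Endomorphisms over `F` preserve the Gauss valuation ring -/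

/-- An element of `F'` satisfying a monic equation with coefficients in the Gauss valuation ring
lies in the Gauss valuation ring. -/
theorem mem_of_monic_relation (O : ValuationSubring ↥F') {n : ℕ} (a : Fin n → F')
    (ha : ∀ t, a t ∈ O) (x : F') (hx : x ^ n = ∑ t, a t * x ^ (t : ℕ)) : x ∈ O := by
  by_contra hxO
  have hinv : x⁻¹ ∈ O := (O.mem_or_inv_mem x).resolve_left hxO
  have hx0 : x ≠ 0 := fun h0 => hxO (h0 ▸ O.zero_mem)
  rcases Nat.eq_zero_or_pos n with hn | hn
  · subst hn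
    simp at hx
  · have h1 : x = x ^ n * x⁻¹ ^ (n - 1) := by
      have h0 : x ^ n = x ^ (n - 1) * x := by
        rw [← pow_succ, Nat.sub_add_cancel hn]
      rw [h0, mul_assoc, mul_comm x, ← mul_assoc, ← mul_pow, mul_inv_cancel₀ hx0, one_pow,
        one_mul]
    have h2 : ∀ t : Fin n, x ^ (t : ℕ) * x⁻¹ ^ (n - 1) = x⁻¹ ^ (n - 1 - (t : ℕ)) := by
      intro t
      have ht : n - 1 = (n - 1 - (t : ℕ)) + (t : ℕ) := by
        have := t.2
        omega
      conv_lhs => rw [ht, _root_.pow_add, mul_comm (x⁻¹ ^ (n - 1 - (t : ℕ))), ← mul_assoc,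
        ← mul_pow, mul_inv_cancel₀ hx0, one_pow, one_mul]
    have key : x = ∑ t : Fin n, a t * x⁻¹ ^ (n - 1 - (t : ℕ)) := by
      calc x = x ^ n * x⁻¹ ^ (n - 1) := h1
        _ = (∑ t, a t * x ^ (t : ℕ)) * x⁻¹ ^ (n - 1) := by rw [hx]
        _ = ∑ t : Fin n, a t * x⁻¹ ^ (n - 1 - (t : ℕ)) := by
          rw [Finset.sum_mul]
          exact Finset.sum_congr rfl fun t _ => by rw [mul_assoc, h2 t]
    apply hxO
    rw [key]
    exact sum_mem fun t _ => mul_mem (ha t) (pow_mem hinv _)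

/-- coercion of a polynomial expression in `x` with coefficients from `F`. -/
theorem coe_sum_inclusion_mul_pow (hle : F ≤ F') {n : ℕ} (c : Fin n → LaurentSeries L)
    (hc : ∀ t, c t ∈ F) (x : F') :
    ((∑ t, IntermediateField.inclusion hle ⟨c t, hc t⟩ * x ^ (t : ℕ) : F') : LaurentSeries L) =
      ∑ t, c t * (x : LaurentSeries L) ^ (t : ℕ) := by
  rw [IntermediateField.coe_sum]
  refine Finset.sum_congr rfl fun t _ => ?_
  rw [IntermediateField.coe_mul, IntermediateField.coe_pow]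
  rfl

/-- **Endomorphisms of `F'` over `F` preserve the Gauss valuation ring** (in the situation of a
step). -/
theorem ringHom_mem (hπ : ∀ a : A, ¬ IsUnit a → π a = 0) (h : GoodV A π F κ)
    (X : LaurentSeries A) {n : ℕ}
    (hdeg : ∃ a : Fin n → LaurentSeries L, (∀ t, a t ∈ F) ∧
      incl A X ^ n = ∑ t, a t * incl A X ^ (t : ℕ))
    (hind : ∀ c : Fin n → LaurentSeries k, (∀ t, c t ∈ κ) →
      ∑ t, c t * rbar A π X ^ (t : ℕ) = 0 → ∀ t, c t = 0)
    (hF' : F' = IntermediateField.adjoin L ((F : Set (LaurentSeries L)) ∪ {incl A X}))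
    (hG' : GoodV A π F' κ') (hle : F ≤ F')
    (δ : ↥F' →+* ↥F') (hδ : ∀ c : F, δ (IntermediateField.inclusion hle c) =
      IntermediateField.inclusion hle c)
    (y : F') (hy : y ∈ gaussVS hG') : δ y ∈ gaussVS hG' := by
  have hX : incl A X ∈ F' := by
    rw [hF']
    exact IntermediateField.subset_adjoin L _ (Or.inr rfl)
  -- the degree relation inside `F'`, with coefficients in the Gauss ring
  obtain ⟨a, haF, ha⟩ := hdeg
  have hmem : ∑ t, a t * incl A X ^ (t : ℕ) ∈ gaussRing A π := by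
    rw [← ha]
    exact incl_pow_mem X n
  have hag := h.coeff_mem hπ X hind a haF hmem
  have hrel : (⟨incl A X, hX⟩ : F') ^ n =
      ∑ t, IntermediateField.inclusion hle ⟨a t, haF t⟩ * (⟨incl A X, hX⟩ : F') ^ (t : ℕ) := by
    apply Subtype.ext
    rw [coe_sum_inclusion_mul_pow hle a haF, IntermediateField.coe_pow]
    exact ha
  have hrel' : δ ⟨incl A X, hX⟩ ^ n =
      ∑ t, IntermediateField.inclusion hle ⟨a t, haF t⟩ * δ ⟨incl A X, hX⟩ ^ (t : ℕ) := by
    have h5 := congrArg δ hrel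
    rw [map_pow, map_sum] at h5
    rw [h5]
    exact Finset.sum_congr rfl fun t _ => by rw [map_mul, map_pow, hδ]
  have haO : ∀ t, IntermediateField.inclusion hle ⟨a t, haF t⟩ ∈ gaussVS hG' := fun t => hag t
  have hδx : δ ⟨incl A X, hX⟩ ∈ gaussVS hG' :=
    mem_of_monic_relation (gaussVS hG') (fun t => IntermediateField.inclusion hle ⟨a t, haF t⟩)
      haO (δ ⟨incl A X, hX⟩) hrel'
  -- expand `y`
  obtain ⟨c, hcF, hyc⟩ := step_span F (incl A X) ⟨a, haF, ha⟩ (y : LaurentSeries L)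
    (by rw [← hF']; exact y.2)
  have hcg := h.coeff_mem hπ X hind c hcF (by rw [← hyc]; exact hy)
  have hcO : ∀ t, IntermediateField.inclusion hle ⟨c t, hcF t⟩ ∈ gaussVS hG' := fun t => hcg t
  have hy' : y = ∑ t, IntermediateField.inclusion hle ⟨c t, hcF t⟩ *
      (⟨incl A X, hX⟩ : F') ^ (t : ℕ) := by
    apply Subtype.ext
    rw [coe_sum_inclusion_mul_pow hle c hcF]
    exact hyc
  have hδy : δ y = ∑ t, IntermediateField.inclusion hle ⟨c t, hcF t⟩ *
      δ ⟨incl A X, hX⟩ ^ (t : ℕ) := by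
    rw [hy', map_sum]
    exact Finset.sum_congr rfl fun t _ => by rw [map_mul, map_pow, hδ]
  rw [hδy]
  exact sum_mem fun t _ => mul_mem (hcO t) (pow_mem hδx _)

/-- Endomorphisms of `F'` over `F` preserve the units of the Gauss valuation ring. -/
theorem ringHom_red_ne_zero (hπ : ∀ a : A, ¬ IsUnit a → π a = 0) (h : GoodV A π F κ)
    (X : LaurentSeries A) {n : ℕ}
    (hdeg : ∃ a : Fin n → LaurentSeries L, (∀ t, a t ∈ F) ∧
      incl A X ^ n = ∑ t, a t * incl A X ^ (t : ℕ))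
    (hind : ∀ c : Fin n → LaurentSeries k, (∀ t, c t ∈ κ) →
      ∑ t, c t * rbar A π X ^ (t : ℕ) = 0 → ∀ t, c t = 0)
    (hF' : F' = IntermediateField.adjoin L ((F : Set (LaurentSeries L)) ∪ {incl A X}))
    (hG' : GoodV A π F' κ') (hle : F ≤ F')
    (δ : ↥F' →+* ↥F') (hδ : ∀ c : F, δ (IntermediateField.inclusion hle c) =
      IntermediateField.inclusion hle c)
    (y : F') (hy : y ∈ gaussVS hG') (hne : gaussRed hπ hG' ⟨y, hy⟩ ≠ 0) :
    ∃ hy' : δ y ∈ gaussVS hG', gaussRed hπ hG' ⟨δ y, hy'⟩ ≠ 0 := by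
  have h1 := ringHom_mem hπ h X hdeg hind hF' hG' hle δ hδ y hy
  have hinv : y⁻¹ ∈ gaussVS hG' := inv_mem_gaussVS hπ hG' y hy hne
  have h2 := ringHom_mem hπ h X hdeg hind hF' hG' hle δ hδ y⁻¹ hinv
  rw [map_inv₀] at h2
  have hy0 : y ≠ 0 := by
    rintro rfl
    apply hne
    have : (⟨0, hy⟩ : gaussVS hG') = 0 := rfl
    rw [this, map_zero]
  have hδy0 : δ y ≠ 0 := fun h0 => hy0 (δ.injective (by rw [h0, map_zero]))
  exact ⟨h1, gaussRed_ne_zero_of_inv_mem hπ hG' (δ y) hδy0 h1 h2⟩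

end

end Fermat.Agent.G1.V.PackAbs
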