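/-
G1-V (helper80): packaging of the Gauss valuation of `L·F1a M a` (`F1a M a = F1(M)·F0(M a)`, the
function field of `Γ₁(M) ∩ Γ₀(M a)`), on top of helper4's interface `G1/V/Defs.lean`.

Inputs (`Inputs k M a`): `DegRel M`, `DiaRel M`, `Inert k M (M * a)`, `DiaRelC k M`.

Outputs, for every valuation subring `A` of a field `L ⊇ ℚ` with `π : A →+* k`,
`((M * a : ℕ) : k) ≠ 0`:

* `F1aC k M a`         : the residue field `F1C k M ⊔ F0(M a)~`;
* instances            : `L·F1a M a` is an algebra over `L·F0(M a)`, `F1aC k M a` over `F0(M a)~`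
                         (inclusions), with the scalar towers over `L`, `k`;
* `goodV_F1a`          : `GoodV A π (laurentBaseChange L (F1a M a)) (F1aC k M a)`;
                         `O1 := gaussVS (goodV_F1a hNk H)`, `red1 := gaussRed hπ (goodV_F1a hNk H)`;
* `goodBasis`          : `Ortho.GoodBasis O1 red1 (Ow A π (M*a) hNk) (redF A π (M*a) hπ hNk)
                         (Fin (degX M))`, with `b j = x_1^j` (`coe_goodBasis_b`);
* `red1_surjective`, `isSeparable` (from a separable polynomial killing `x̄_1`);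
* `ringHom_mem`, `ringHom_red_ne_zero` : every ring endomorphism of `L·F1a M a` fixing
  `L·F0(M a)` preserves `O1` and its units (the diamonds).
-/
import Mathlib
import Fermat.Agent.G1.V.PackAbs
import Fermat.Agent.G1.V.Defs

set_option autoImplicit false
set_option linter.unusedSectionVars false

namespace Fermat.Agent.G1.V.Pack

open HahnSeries ModularCurve Polynomial
open Fermat.Agent.Lib.Red Fermat.Agent.BAD.TwoVal Fermat.Agent.G1 Fermat.Agent.G1.V
open Fermat.Agent.G1.V.PackAbs

noncomputable section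

/-! ### Levels and base change -/

theorem fullC_le_of_dvd (K : Type*) [Field K] {N N' : ℕ} [NeZero N] [NeZero N'] (h : N ∣ N') :
    modularFunctionFieldFullC K N ≤ modularFunctionFieldFullC K N' := by
  unfold modularFunctionFieldFullC
  apply IntermediateField.adjoin.mono
  rintro x ⟨d, hd, hdN, rfl⟩
  exact ⟨d, hd, hdN.trans h, rfl⟩

theorem full_le_of_dvd {N N' : ℕ} [NeZero N] [NeZero N'] (h : N ∣ N') :
    modularFunctionFieldFull N ≤ modularFunctionFieldFull N' :=
  full_degeneracy_le h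

theorem laurentBaseChange_mono (L : Type*) [Field L] [Algebra ℚ L]
    {F₀ F₁ : IntermediateField ℚ (LaurentSeries ℚ)} (h : F₀ ≤ F₁) :
    laurentBaseChange L F₀ ≤ laurentBaseChange L F₁ := by
  unfold laurentBaseChange
  exact IntermediateField.adjoin.mono L _ _ (Set.image_mono h)

/-- The mod-`p` twin of `F1a M a`: the field generated by `F1C k M` and the mod-`p` function
field of `X_0(M a)`. -/
def F1aC (k : Type*) [Field k] (M a : ℕ) [NeZero M] [NeZero a] :
    IntermediateField k (LaurentSeries k) :=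
  F1C k M ⊔ modularFunctionFieldFullC k (M * a)

section Fields

variable (L : Type*) [Field L] [Algebra ℚ L] (k : Type) [Field k] (M a : ℕ) [NeZero M]
  [NeZero a]

theorem F0L_le_F1L :
    laurentBaseChange L (modularFunctionFieldFull (M * a)) ≤ laurentBaseChange L (F1a M a) :=
  laurentBaseChange_mono L (full_le_F1a M a)

theorem fullC_le_F1aC : modularFunctionFieldFullC k (M * a) ≤ F1aC k M a := le_sup_right

theorem F1C_le_F1aC : F1C k M ≤ F1aC k M a := le_sup_left

/-- `L·F1a M a` is an algebra over `L·F0(M a)` (inclusion). -/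
instance instAlgebraF1a : Algebra ↥(laurentBaseChange L (modularFunctionFieldFull (M * a)))
    ↥(laurentBaseChange L (F1a M a)) :=
  algOfLE (F0L_le_F1L L M a)

instance instIsScalarTowerF1a : IsScalarTower L
    ↥(laurentBaseChange L (modularFunctionFieldFull (M * a))) ↥(laurentBaseChange L (F1a M a)) :=
  isScalarTower_algOfLE (F0L_le_F1L L M a)

/-- `F1aC k M a` is an algebra over the mod-`p` function field of `X_0(M a)` (inclusion). -/
instance instAlgebraF1aC : Algebra ↥(modularFunctionFieldFullC k (M * a)) ↥(F1aC k M a) :=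
  algOfLE (fullC_le_F1aC k M a)

instance instIsScalarTowerF1aC : IsScalarTower k ↥(modularFunctionFieldFullC k (M * a))
    ↥(F1aC k M a) :=
  isScalarTower_algOfLE (fullC_le_F1aC k M a)

theorem coe_algebraMap_F1a (c : laurentBaseChange L (modularFunctionFieldFull (M * a))) :
    ((algebraMap ↥(laurentBaseChange L (modularFunctionFieldFull (M * a)))
      ↥(laurentBaseChange L (F1a M a)) c : laurentBaseChange L (F1a M a)) : LaurentSeries L) =
      (c : LaurentSeries L) :=
  coe_algebraMap_algOfLE (F0L_le_F1L L M a) c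

theorem coe_algebraMap_F1aC (c : modularFunctionFieldFullC k (M * a)) :
    ((algebraMap ↥(modularFunctionFieldFullC k (M * a)) ↥(F1aC k M a) c : F1aC k M a) :
      LaurentSeries k) = (c : LaurentSeries k) :=
  coe_algebraMap_algOfLE (fullC_le_F1aC k M a) c

omit [NeZero M] in
theorem coeffEmb_xgen_one : coeffEmb L (xgen M 1) = xgenR L M 1 := by
  rw [coeffEmb_xgen, Units.val_one]

theorem xgenR_one_mem_F1L : xgenR L M 1 ∈ laurentBaseChange L (F1a M a) := by
  rw [← coeffEmb_xgen_one]
  exact coeffEmb_mem_laurentBaseChange L (F1_le_F1a M a (xgen_mem_F1 M 1))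

theorem xgenR_one_mem_F1aC : xgenR k M 1 ∈ F1aC k M a := by
  have h := xgenR_mem_F1C M k (1 : (ZMod M)ˣ)
  rw [Units.val_one] at h
  exact F1C_le_F1aC k M a h

/-- The degree relation over `L·F0(M a)`. -/
theorem hdegL (hDeg : DegRel M) :
    ∃ c : Fin (degX M) → LaurentSeries L,
      (∀ t, c t ∈ laurentBaseChange L (modularFunctionFieldFull (M * a))) ∧
      xgenR L M 1 ^ degX M = ∑ t, c t * xgenR L M 1 ^ (t : ℕ) := by
  obtain ⟨c, hc, hrel⟩ := hDeg
  refine ⟨fun t => coeffEmb L (c t), fun t => ?_, ?_⟩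
  · exact laurentBaseChange_mono L (full_le_of_dvd (dvd_mul_right M a))
      (coeffEmb_mem_laurentBaseChange L (hc t))
  · rw [← coeffEmb_xgen_one, ← map_pow, hrel, map_sum]
    exact Finset.sum_congr rfl fun t _ => by rw [map_mul, map_pow]

/-- `L·F1a M a = L·F0(M a)(x_1)`. -/
theorem F1L_eq (hDia : DiaRel M) :
    laurentBaseChange L (F1a M a) = IntermediateField.adjoin L
      ((laurentBaseChange L (modularFunctionFieldFull (M * a)) : Set (LaurentSeries L)) ∪
        {xgenR L M 1}) := by
  set E := IntermediateField.adjoin L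
      ((laurentBaseChange L (modularFunctionFieldFull (M * a)) : Set (LaurentSeries L)) ∪
        {xgenR L M 1}) with hE
  have hF0E : ∀ x ∈ laurentBaseChange L (modularFunctionFieldFull (M * a)), x ∈ E :=
    fun x hx => IntermediateField.subset_adjoin L _ (Or.inl hx)
  have hxE : xgenR L M 1 ∈ E := IntermediateField.subset_adjoin L _ (Or.inr rfl)
  have hM : ∀ s ∈ modularFunctionFieldFull M, coeffEmb L s ∈ E := fun s hs =>
    hF0E _ (laurentBaseChange_mono L (full_le_of_dvd (dvd_mul_right M a))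
      (coeffEmb_mem_laurentBaseChange L hs))
  apply le_antisymm
  · show IntermediateField.adjoin L (⇑(coeffEmb L) '' (F1a M a : Set (LaurentSeries ℚ))) ≤ E
    rw [IntermediateField.adjoin_le_iff]
    rintro _ ⟨x, hx, rfl⟩
    have hx' : x ∈ IntermediateField.adjoin ℚ ((F1 M : Set (LaurentSeries ℚ)) ∪
        (modularFunctionFieldFull (M * a) : Set (LaurentSeries ℚ))) := hx
    refine Fermat.Agent.ESJ.Cong.LevelGen.coeffEmb_mem_of_mem_adjoin E ?_ hx'
    rintro s (hs | hs)
    · have hs' : s ∈ IntermediateField.adjoin ℚ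
          ((modularFunctionFieldFull M : Set (LaurentSeries ℚ)) ∪ Set.range (xgen M)) := hs
      refine Fermat.Agent.ESJ.Cong.LevelGen.coeffEmb_mem_of_mem_adjoin E ?_ hs'
      rintro s' (hs' | ⟨u, rfl⟩)
      · exact hM s' hs'
      · refine Fermat.Agent.ESJ.Cong.LevelGen.coeffEmb_mem_of_mem_adjoin E ?_ (hDia u)
        rintro s'' (hs'' | hs'')
        · exact hM s'' hs''
        · rw [Set.mem_singleton_iff] at hs''
          rw [hs'', coeffEmb_xgen_one]
          exact hxE
    · exact hF0E _ (coeffEmb_mem_laurentBaseChange L hs)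
  · rw [hE, IntermediateField.adjoin_le_iff]
    rintro x (hx | hx)
    · exact F0L_le_F1L L M a hx
    · rw [Set.mem_singleton_iff] at hx
      rw [hx]
      exact xgenR_one_mem_F1L L M a

/-- `F1aC k M a = F0(M a)~(x̄_1)`. -/
theorem F1aC_eq (hDiaC : DiaRelC k M) :
    F1aC k M a = IntermediateField.adjoin k
      ((modularFunctionFieldFullC k (M * a) : Set (LaurentSeries k)) ∪ {xgenR k M 1}) := by
  set E := IntermediateField.adjoin k
      ((modularFunctionFieldFullC k (M * a) : Set (LaurentSeries k)) ∪ {xgenR k M 1}) with hE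
  have hκE : ∀ x ∈ modularFunctionFieldFullC k (M * a), x ∈ E :=
    fun x hx => IntermediateField.subset_adjoin k _ (Or.inl hx)
  have hxE : xgenR k M 1 ∈ E := IntermediateField.subset_adjoin k _ (Or.inr rfl)
  have hM : ∀ s ∈ modularFunctionFieldFullC k M, s ∈ E := fun s hs =>
    hκE _ (fullC_le_of_dvd k (dvd_mul_right M a) hs)
  apply le_antisymm
  · refine sup_le ?_ hκE
    show IntermediateField.adjoin k ((modularFunctionFieldFullC k M : Set (LaurentSeries k)) ∪
      Set.range (fun u : (ZMod M)ˣ => xgenR k M (u : ZMod M))) ≤ E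
    rw [IntermediateField.adjoin_le_iff]
    rintro s (hs | ⟨u, rfl⟩)
    · exact hM s hs
    · refine (IntermediateField.adjoin_le_iff.mpr ?_) (hDiaC u)
      rintro s' (hs' | hs')
      · exact hM s' hs'
      · rw [Set.mem_singleton_iff] at hs'
        rw [hs']
        exact hxE
  · rw [hE, IntermediateField.adjoin_le_iff]
    rintro x (hx | hx)
    · exact fullC_le_F1aC k M a hx
    · rw [Set.mem_singleton_iff] at hx
      rw [hx]
      exact xgenR_one_mem_F1aC k M a

end Fields

/-! ### The packaging -/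

/-- The inputs of the packaging (helper4's INERT layer, `G1/V/Defs.lean`). -/
structure Inputs (k : Type) [Field k] (M a : ℕ) [NeZero M] [NeZero a] : Prop where
  deg : DegRel M
  dia : DiaRel M
  inert : Inert k M (M * a)
  diaC : DiaRelC k M

variable {L : Type*} [Field L] [Algebra ℚ L] (A : ValuationSubring L) {k : Type} [Field k]
  (π : A →+* k) (M a : ℕ) [NeZero M] [NeZero a]

/-- The `A`-integral primitive element `x_1`. -/
def xA : LaurentSeries A := xgenR A M 1

omit [Algebra ℚ L] [NeZero M] in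
theorem incl_xA : incl A (xA A M) = xgenR L M 1 := coeffMap_xgenR M A.subtype 1

omit [Algebra ℚ L] [NeZero M] in
theorem rbar_xA : rbar A π (xA A M) = xgenR k M 1 := coeffMap_xgenR M π 1

theorem incl_xA_mem : incl A (xA A M) ∈ laurentBaseChange L (F1a M a) := by
  rw [incl_xA]
  exact xgenR_one_mem_F1L L M a

variable {A π M a}

theorem hdeg_xA (H : Inputs k M a) :
    ∃ c : Fin (degX M) → LaurentSeries L,
      (∀ t, c t ∈ laurentBaseChange L (modularFunctionFieldFull (M * a))) ∧
      incl A (xA A M) ^ degX M = ∑ t, c t * incl A (xA A M) ^ (t : ℕ) := by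
  rw [incl_xA]
  exact hdegL L M a H.deg

theorem hind_xA (H : Inputs k M a) :
    ∀ c : Fin (degX M) → LaurentSeries k, (∀ t, c t ∈ modularFunctionFieldFullC k (M * a)) →
      ∑ t, c t * rbar A π (xA A M) ^ (t : ℕ) = 0 → ∀ t, c t = 0 := by
  rw [rbar_xA]
  exact H.inert

theorem F1L_eq_xA (H : Inputs k M a) :
    laurentBaseChange L (F1a M a) = IntermediateField.adjoin L
      ((laurentBaseChange L (modularFunctionFieldFull (M * a)) : Set (LaurentSeries L)) ∪
        {incl A (xA A M)}) := by
  rw [incl_xA]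
  exact F1L_eq L M a H.dia

theorem F1aC_eq_xA (H : Inputs k M a) :
    F1aC k M a = IntermediateField.adjoin k
      ((modularFunctionFieldFullC k (M * a) : Set (LaurentSeries k)) ∪ {rbar A π (xA A M)}) := by
  rw [rbar_xA]
  exact F1aC_eq k M a H.diaC

/-- **`GoodV` for `L·F1a M a`**, with residue field `F1aC k M a`. -/
theorem goodV_F1a (hNk : ((M * a : ℕ) : k) ≠ 0) (H : Inputs k M a) :
    GoodV A π (laurentBaseChange L (F1a M a)) (F1aC k M a) :=
  goodV_of_step (goodV_full' A π (M * a) hNk) (xA A M) (hdeg_xA H) (hind_xA H) (F1L_eq_xA H)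
    (F1aC_eq_xA H)

/-- `(Ow, redF)` is the Gauss pair of the trunk field. -/
theorem isGaussPair_Ow (hπ : ∀ a : A, ¬ IsUnit a → π a = 0) (N : ℕ) [NeZero N]
    (hNk : (N : k) ≠ 0) :
    IsGaussPair A π (laurentBaseChange L (modularFunctionFieldFull N))
      (modularFunctionFieldFullC k N) (Ow A π N hNk) (redF A π N hπ hNk) :=
  ⟨fun _ => Iff.rfl, fun _ _ _ => rfl⟩

/-- **The good basis** `1, x_1, …, x_1^(n-1)` of `L·F1a M a` over `L·F0(M a)`
(`O1 = gaussVS (goodV_F1a hNk H)`, `red1 = gaussRed hπ (goodV_F1a hNk H)`). -/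
def goodBasis (hπ : ∀ a : A, ¬ IsUnit a → π a = 0) (hsurj : Function.Surjective π)
    (hNk : ((M * a : ℕ) : k) ≠ 0) (H : Inputs k M a) :
    Ortho.GoodBasis (gaussVS (goodV_F1a (A := A) (π := π) hNk H))
      (gaussRed hπ (goodV_F1a (A := A) (π := π) hNk H))
      (Ow A π (M * a) hNk) (redF A π (M * a) hπ hNk) (Fin (degX M)) :=
  stepGoodBasis hπ (goodV_full' A π (M * a) hNk) (isGaussPair_Ow hπ (M * a) hNk)
    (redF_surjective hπ hsurj hNk) (xA A M) (hdeg_xA H) (hind_xA H) (F1L_eq_xA H)
    (F1aC_eq_xA H) (goodV_F1a hNk H) (F0L_le_F1L L M a) (fullC_le_F1aC k M a)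

theorem coe_goodBasis_b (hπ : ∀ a : A, ¬ IsUnit a → π a = 0) (hsurj : Function.Surjective π)
    (hNk : ((M * a : ℕ) : k) ≠ 0) (H : Inputs k M a) (j : Fin (degX M)) :
    ((((goodBasis hπ hsurj hNk H).b j : gaussVS (goodV_F1a (A := A) (π := π) hNk H)) :
      laurentBaseChange L (F1a M a)) : LaurentSeries L) = xgenR L M 1 ^ (j : ℕ) := by
  rw [← incl_xA A M]
  rfl

theorem coe_red1_goodBasis_b (hπ : ∀ a : A, ¬ IsUnit a → π a = 0) (hsurj : Function.Surjective π)
    (hNk : ((M * a : ℕ) : k) ≠ 0) (H : Inputs k M a) (j : Fin (degX M)) :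
    ((gaussRed hπ (goodV_F1a (A := A) (π := π) hNk H) ((goodBasis hπ hsurj hNk H).b j) :
      F1aC k M a) : LaurentSeries k) = xgenR k M 1 ^ (j : ℕ) := by
  rw [← rbar_xA A π M]
  exact coe_gaussRed_powFam hπ (goodV_F1a hNk H) (xA A M) (incl_xA_mem A M a) _ j

/-- The residue map of `L·F1a M a` is onto `F1aC k M a`. -/
theorem red1_surjective (hπ : ∀ a : A, ¬ IsUnit a → π a = 0) (hsurj : Function.Surjective π)
    (hNk : ((M * a : ℕ) : k) ≠ 0) (H : Inputs k M a) :
    Function.Surjective (gaussRed hπ (goodV_F1a (A := A) (π := π) hNk H)) :=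
  (goodBasis hπ hsurj hNk H).surj

/-- **Separability** of the residue extension `F1aC k M a / F0(M a)~`, from a separable
polynomial killing `x̄_1`. -/
theorem isSeparable (H : Inputs k M a)
    (hsep : ∃ Q : Polynomial ↥(modularFunctionFieldFullC k (M * a)), Q.Separable ∧
      Polynomial.aeval (xgenR k M 1) Q = 0) :
    Algebra.IsSeparable ↥(modularFunctionFieldFullC k (M * a)) ↥(F1aC k M a) := by
  obtain ⟨Q, hQ, hQx⟩ := hsep
  exact isSeparable_step (F1aC_eq k M a H.diaC) (fullC_le_F1aC k M a) Q hQ hQx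

/-- **The diamonds are integral**: every ring endomorphism of `L·F1a M a` fixing `L·F0(M a)`
preserves the Gauss valuation ring `O1`. -/
theorem ringHom_mem (hπ : ∀ a : A, ¬ IsUnit a → π a = 0) (hNk : ((M * a : ℕ) : k) ≠ 0)
    (H : Inputs k M a)
    (δ : ↥(laurentBaseChange L (F1a M a)) →+* ↥(laurentBaseChange L (F1a M a)))
    (hδ : ∀ c : laurentBaseChange L (modularFunctionFieldFull (M * a)),
      δ (algebraMap _ _ c) = algebraMap _ _ c)
    (y : laurentBaseChange L (F1a M a))
    (hy : y ∈ gaussVS (goodV_F1a (A := A) (π := π) hNk H)) :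
    δ y ∈ gaussVS (goodV_F1a (A := A) (π := π) hNk H) :=
  PackAbs.ringHom_mem hπ (goodV_full' A π (M * a) hNk) (xA A M) (hdeg_xA H) (hind_xA H)
    (F1L_eq_xA H) (goodV_F1a hNk H) (F0L_le_F1L L M a) δ hδ y hy

/-- Every ring endomorphism of `L·F1a M a` fixing `L·F0(M a)` preserves the units of `O1`. -/
theorem ringHom_red_ne_zero (hπ : ∀ a : A, ¬ IsUnit a → π a = 0)
    (hNk : ((M * a : ℕ) : k) ≠ 0) (H : Inputs k M a)
    (δ : ↥(laurentBaseChange L (F1a M a)) →+* ↥(laurentBaseChange L (F1a M a)))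
    (hδ : ∀ c : laurentBaseChange L (modularFunctionFieldFull (M * a)),
      δ (algebraMap _ _ c) = algebraMap _ _ c)
    (y : laurentBaseChange L (F1a M a))
    (hy : y ∈ gaussVS (goodV_F1a (A := A) (π := π) hNk H))
    (hne : gaussRed hπ (goodV_F1a (A := A) (π := π) hNk H) ⟨y, hy⟩ ≠ 0) :
    ∃ hy' : δ y ∈ gaussVS (goodV_F1a (A := A) (π := π) hNk H),
      gaussRed hπ (goodV_F1a (A := A) (π := π) hNk H) ⟨δ y, hy'⟩ ≠ 0 :=
  PackAbs.ringHom_red_ne_zero hπ (goodV_full' A π (M * a) hNk) (xA A M) (hdeg_xA H) (hind_xA H)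
    (F1L_eq_xA H) (goodV_F1a hNk H) (F0L_le_F1L L M a) δ hδ y hy hne

end

end Fermat.Agent.G1.V.Pack
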