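/-
G1-V (helper80): the outputs of `G1/V/Pack.lean` in the shapes consumed by G1-CONG (helper43):

* `integralScaling_of_goodV` : `Cong.IntegralScaling F₀ A` from any `GoodV` for `ℚ̄·F₀`;
* `integralScaling_F1a`      : `Cong.IntegralScaling (F1a M a) A`;
* `redTo_ringHom`            : every ring endomorphism `δ` of `L·F1a M a` fixing `L·F0(M a)` maps
  functions reducing to a nonzero series to functions reducing to a nonzero series
  (`ESJ.RedK.RedTo` form: the diamonds preserve the units of the Gauss valuation ring).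
-/
import Fermat.Agent.G1.V.Pack
import Fermat.Agent.G1.Cong.TorsionESAbs
import Fermat.Agent.ESJ.RedK.GaussGal

set_option autoImplicit false

namespace Fermat.Agent.G1.V.Pack

open HahnSeries ModularCurve Polynomial
open Fermat.Agent.Lib.Red Fermat.Agent.BAD.TwoVal Fermat.Agent.G1 Fermat.Agent.G1.V
open Fermat.Agent.G1.V.PackAbs

noncomputable section

/-- `IntegralScaling` from `GoodV` (generic in the field `F₀`). -/
theorem integralScaling_of_goodV (F₀ : IntermediateField ℚ (LaurentSeries ℚ))
    (A : ValuationSubring (AlgebraicClosure ℚ))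
    {κ : IntermediateField (IsLocalRing.ResidueField A)
      (LaurentSeries (IsLocalRing.ResidueField A))}
    (hG : GoodV A (IsLocalRing.residue A) (laurentBaseChange (AlgebraicClosure ℚ) F₀) κ) :
    Fermat.Agent.G1.Cong.IntegralScaling F₀ A := by
  intro f hf
  have hf0 : (f : LaurentSeries (AlgebraicClosure ℚ)) ≠ 0 := fun h => hf (Subtype.ext h)
  obtain ⟨a, P, s, ha, hPF, hsF, hP, hs, -, -, heq⟩ :=
    hG (f : LaurentSeries (AlgebraicClosure ℚ)) f.2 hf0
  refine ⟨a, P, s, hPF, hsF, ha, hP, hs, Subtype.ext ?_⟩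
  have h1 : ((algebraMap (AlgebraicClosure ℚ) (laurentBaseChange (AlgebraicClosure ℚ) F₀) a :
      laurentBaseChange (AlgebraicClosure ℚ) F₀) : LaurentSeries (AlgebraicClosure ℚ)) =
      HahnSeries.C a := by
    rw [Fermat.Agent.Lib.Red.C_eq_algebraMap]
    rfl
  show ((algebraMap (AlgebraicClosure ℚ) (laurentBaseChange (AlgebraicClosure ℚ) F₀) a :
      laurentBaseChange (AlgebraicClosure ℚ) F₀) : LaurentSeries (AlgebraicClosure ℚ)) *
        (f : LaurentSeries (AlgebraicClosure ℚ)) * coeffMap A.subtype s = coeffMap A.subtype P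
  rw [h1]
  exact heq

/-- **`IntegralScaling` for `F1a M a`** (helper43's literal shape). -/
theorem integralScaling_F1a (A : ValuationSubring (AlgebraicClosure ℚ)) (M a : ℕ) [NeZero M]
    [NeZero a] (hNk : ((M * a : ℕ) : IsLocalRing.ResidueField A) ≠ 0)
    (H : Inputs (IsLocalRing.ResidueField A) M a) :
    Fermat.Agent.G1.Cong.IntegralScaling (F1a M a) A :=
  integralScaling_of_goodV (F1a M a) A (goodV_F1a (A := A) (π := IsLocalRing.residue A) hNk H)

variable {L : Type*} [Field L] [Algebra ℚ L] {A : ValuationSubring L} {k : Type} [Field k]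
  {π : A →+* k} {M a : ℕ} [NeZero M] [NeZero a]

/-- **The diamonds preserve the units of the Gauss valuation ring**, `RedTo` form. -/
theorem redTo_ringHom (hπ : ∀ a : A, ¬ IsUnit a → π a = 0) (hNk : ((M * a : ℕ) : k) ≠ 0)
    (H : Inputs k M a)
    (δ : ↥(laurentBaseChange L (F1a M a)) →+* ↥(laurentBaseChange L (F1a M a)))
    (hδ : ∀ c : laurentBaseChange L (modularFunctionFieldFull (M * a)),
      δ (algebraMap _ _ c) = algebraMap _ _ c)
    (f : laurentBaseChange L (F1a M a)) (u : LaurentSeries k) (hu : u ≠ 0)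
    (hf : Fermat.Agent.ESJ.RedK.RedTo A π (f : LaurentSeries L) u) :
    ∃ u' : LaurentSeries k, u' ≠ 0 ∧
      Fermat.Agent.ESJ.RedK.RedTo A π ((δ f : laurentBaseChange L (F1a M a)) : LaurentSeries L)
        u' := by
  obtain ⟨hmem, hred⟩ := hf
  have hy : f ∈ gaussVS (goodV_F1a (A := A) (π := π) hNk H) := hmem
  have hne : gaussRed hπ (goodV_F1a (A := A) (π := π) hNk H) ⟨f, hy⟩ ≠ 0 := by
    intro h0
    apply hu
    rw [← hred]
    have h1 := congrArg (fun z : F1aC k M a => (z : LaurentSeries k)) h0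
    exact h1
  obtain ⟨hy', hne'⟩ := ringHom_red_ne_zero hπ hNk H δ hδ f hy hne
  refine ⟨red A π ⟨((δ f : laurentBaseChange L (F1a M a)) : LaurentSeries L), hy'⟩, ?_, hy', rfl⟩
  intro h0
  apply hne'
  exact Subtype.ext h0

end

end Fermat.Agent.G1.V.Pack
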