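/-
G1-V (helper4): Lagrange interpolation through power sums (Mathlib only).

`x, y : G → Ω` families in a field `Ω` (`x` injective, `G` finite, `n = |G|`), `K` a field with
an embedding `i : K → Ω` such that the power sums `∑ x_d^m` and the mixed power sums
`∑ y_d x_d^j` come from `K` (`a m`, `b j`).  Then the linear system
`∑_m c_m a_(m+j) = b_j` (`j < n`) has a solution over `K` (`exists_system_solution`), and for
every solution the polynomial `∑ c_m X^m` interpolates: its value at `x d` is `y d`
(`eval₂_eq_of_system`).  Since the system is defined over `K` by power sums only, it is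
transported by any ring homomorphism (used for the Atkin–Lehner twist).
-/
import Mathlib

set_option autoImplicit false
set_option linter.unusedSectionVars false

namespace Fermat.Agent.G1.V.Lagrange

open Polynomial

variable {K Ω : Type*} [Field K] [Field Ω] {G : Type*} [Fintype G]

/-- A family `u` orthogonal to all powers `x^j`, `j < |G|`, of an injective family vanishes. -/
theorem eq_zero_of_sum_pow_eq_zero (x u : G → Ω) (hx : Function.Injective x)
    (h : ∀ j : Fin (Fintype.card G), ∑ d, u d * x d ^ (j : ℕ) = 0) : ∀ d, u d = 0 := by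
  classical
  set e : Fin (Fintype.card G) ≃ G := (Fintype.equivFin G).symm with he
  have hv : Function.Injective (x ∘ e) := hx.comp e.injective
  have hdet : (Matrix.vandermonde (x ∘ e)).det ≠ 0 := Matrix.det_vandermonde_ne_zero_iff.mpr hv
  have hmul : Matrix.vecMul (u ∘ e) (Matrix.vandermonde (x ∘ e)) = 0 := by
    funext j
    rw [Matrix.vecMul, dotProduct]
    simp only [Matrix.vandermonde_apply, Function.comp_apply, Pi.zero_apply]
    rw [← h j]
    exact Fintype.sum_equiv e _ _ (fun a => rfl)
  have h0 := Matrix.eq_zero_of_vecMul_eq_zero hdet hmul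
  intro d
  have := congrFun h0 (e.symm d)
  simpa using this

/-- **Solution ⇒ interpolation.** -/
theorem eval₂_eq_of_system (i : K →+* Ω) (x y : G → Ω) (hx : Function.Injective x)
    (a b : ℕ → K) (ha : ∀ m, i (a m) = ∑ d, x d ^ m) (hb : ∀ j, i (b j) = ∑ d, y d * x d ^ j)
    (c : Fin (Fintype.card G) → K)
    (hc : ∀ j : Fin (Fintype.card G), ∑ m : Fin (Fintype.card G), c m * a ((m : ℕ) + (j : ℕ)) = b j) :
    ∀ d, (∑ m : Fin (Fintype.card G), Polynomial.C (c m) * X ^ (m : ℕ)).eval₂ i (x d) = y d := by
  have hev : ∀ d, (∑ m : Fin (Fintype.card G), Polynomial.C (c m) * X ^ (m : ℕ)).eval₂ i (x d)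
      = ∑ m : Fin (Fintype.card G), i (c m) * x d ^ (m : ℕ) := by
    intro d
    rw [Polynomial.eval₂_finsetSum]
    refine Finset.sum_congr rfl fun m _ => ?_
    rw [Polynomial.eval₂_mul, Polynomial.eval₂_C, Polynomial.eval₂_pow, Polynomial.eval₂_X]
  have key : ∀ d, (∑ m : Fin (Fintype.card G), i (c m) * x d ^ (m : ℕ)) - y d = 0 := by
    apply eq_zero_of_sum_pow_eq_zero x _ hx
    intro j
    have h1 := congrArg i (hc j)
    rw [map_sum, hb j] at h1
    calc ∑ d, ((∑ m : Fin (Fintype.card G), i (c m) * x d ^ (m : ℕ)) - y d) * x d ^ (j : ℕ)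
        = (∑ m : Fin (Fintype.card G), i (c m) * ∑ d, x d ^ ((m : ℕ) + (j : ℕ)))
            - ∑ d, y d * x d ^ (j : ℕ) := by
          simp only [sub_mul, Finset.sum_sub_distrib, Finset.sum_mul, Finset.mul_sum]
          rw [Finset.sum_comm]
          congr 1
          refine Finset.sum_congr rfl fun m _ => Finset.sum_congr rfl fun d _ => ?_
          rw [pow_add, mul_assoc]
      _ = 0 := by
          rw [← h1, sub_eq_zero]
          refine Finset.sum_congr rfl fun m _ => ?_
          rw [map_mul, ha]
  intro d
  rw [hev d]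
  exact sub_eq_zero.mp (key d)

/-- **Existence of a solution** of the power-sum system over the small field. -/
theorem exists_system_solution (i : K →+* Ω) (x : G → Ω) (hx : Function.Injective x)
    (a : ℕ → K) (ha : ∀ m, i (a m) = ∑ d, x d ^ m) (b : ℕ → K) :
    ∃ c : Fin (Fintype.card G) → K,
      ∀ j : Fin (Fintype.card G), ∑ m : Fin (Fintype.card G), c m * a ((m : ℕ) + (j : ℕ)) = b j := by
  classical
  set n := Fintype.card G with hn
  set e : Fin n ≃ G := (Fintype.equivFin G).symm with he
  have hv : Function.Injective (x ∘ e) := hx.comp e.injective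
  set V : Matrix (Fin n) (Fin n) Ω := Matrix.vandermonde (x ∘ e) with hV
  have hdet : V.det ≠ 0 := Matrix.det_vandermonde_ne_zero_iff.mpr hv
  set H : Matrix (Fin n) (Fin n) K := Matrix.of fun j m => a ((m : ℕ) + (j : ℕ)) with hH
  have hHV : H.map i = V.transpose * V := by
    ext j m
    rw [Matrix.map_apply, hH, Matrix.of_apply, ha, Matrix.mul_apply]
    simp only [Matrix.transpose_apply, hV, Matrix.vandermonde_apply, Function.comp_apply]
    rw [← Fintype.sum_equiv e (fun a => x (e a) ^ (j : ℕ) * x (e a) ^ (m : ℕ))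
      (fun d => x d ^ ((m : ℕ) + (j : ℕ))) (fun a => by rw [pow_add, mul_comm])]
  have hdetH : H.det ≠ 0 := by
    intro h0
    have h1 : (H.map i).det = 0 := by
      have := congrArg i h0
      rw [map_zero, RingHom.map_det] at this
      exact this
    rw [hHV, Matrix.det_mul, Matrix.det_transpose] at h1
    exact hdet (mul_self_eq_zero.mp h1)
  have hunit : IsUnit H.det := isUnit_iff_ne_zero.mpr hdetH
  set bv : Fin n → K := fun j => b (j : ℕ) with hbv
  refine ⟨H⁻¹.mulVec bv, fun j => ?_⟩
  have h2 : H.mulVec (H⁻¹.mulVec bv) = bv := by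
    rw [Matrix.mulVec_mulVec, Matrix.mul_nonsing_inv _ hunit, Matrix.one_mulVec]
  have h3 := congrFun h2 j
  rw [Matrix.mulVec, dotProduct] at h3
  have h4 : bv j = b (j : ℕ) := rfl
  rw [← h4, ← h3]
  refine Finset.sum_congr rfl fun m _ => ?_
  rw [hH, Matrix.of_apply, mul_comm]

/-- The interpolation polynomial attached to a solution is mapped to the polynomial attached to
the mapped solution. -/
theorem map_poly {K' : Type*} [Field K'] (φ : K →+* K') (c : Fin (Fintype.card G) → K) :
    (∑ m : Fin (Fintype.card G), Polynomial.C (c m) * X ^ (m : ℕ)).map φ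
      = ∑ m : Fin (Fintype.card G), Polynomial.C (φ (c m)) * X ^ (m : ℕ) := by
  rw [Polynomial.map_sum]
  refine Finset.sum_congr rfl fun m _ => ?_
  rw [Polynomial.map_mul, Polynomial.map_C, Polynomial.map_pow, Polynomial.map_X]

/-- A solution of the system is mapped to a solution of the mapped system. -/
theorem map_system {K' : Type*} [Field K'] (φ : K →+* K') (a b : ℕ → K)
    (c : Fin (Fintype.card G) → K)
    (hc : ∀ j : Fin (Fintype.card G), ∑ m : Fin (Fintype.card G), c m * a ((m : ℕ) + (j : ℕ)) = b j) :
    ∀ j : Fin (Fintype.card G),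
      ∑ m : Fin (Fintype.card G), φ (c m) * φ (a ((m : ℕ) + (j : ℕ))) = φ (b j) := by
  intro j
  rw [← hc j, map_sum]
  exact Finset.sum_congr rfl fun m _ => by rw [map_mul]

end Fermat.Agent.G1.V.Lagrange
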