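/-
G1-V (helper4): the abstract monodromy lemma behind "X_1(M) is geometrically irreducible mod p".

Setting (pure field theory, Mathlib only).  `Ω` a field (in the application `k((q))`),
`K₀`, `K₁` fields with embeddings `i₀ : K₀ → Ω`, `i₁ : K₁ → Ω` (the mod-`p` function fields of
`X_0(M)` and `X_0(Mℓ)`), `inc : K₀ → K₁` the inclusion, `b : K₀ → K₁` the second degeneracy map
(`q ↦ q^ℓ`, induced by the endomorphism `β` of `Ω`), `w : K₁ → K₁` the Atkin–Lehner map
(`w ∘ inc = b`, `w ∘ b = inc`).  `t : G → Ω` an injective family indexed by a finite commutative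
group `G` (the diamond conjugates of a primitive element of `X_1(M)` over `X_0(M)`), such that

* `∏ d, (X - t d)` has coefficients in `K₀`;
* the diamond operators are polynomial over `K₀`: `R_e (t d) = t (e * d)`;
* `β (t d) = R (t d)` for a polynomial `R` over `K₁`, and `(w R) (β (t d)) = t (d * c)`
  (the twisted involution `W_ℓ² = ⟨ℓ⟩`).

Then `t c` is a conjugate of `t 1` over `K₀` (`conj_of_twist`).  If this holds for every `c : G`
(Dirichlet), then `1, t 1, …, (t 1)^(|G|-1)` are linearly independent over `K₀`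
(`eq_zero_of_conj`, `linearIndependent_pow`).
-/
import Mathlib

set_option autoImplicit false
set_option linter.unusedSectionVars false

namespace Fermat.Agent.G1.V.Mono

open Polynomial

variable {K Ω : Type*} [Field K] [Field Ω]

/-- A monic generator of the vanishing ideal of an algebraic element (`minpoly` for the algebra
structure given by a ring homomorphism). -/
theorem exists_gen (i : K →+* Ω) (x : Ω) (P : Polynomial K) (hPm : P.Monic)
    (hP : P.eval₂ i x = 0) :
    ∃ m : Polynomial K, m.Monic ∧ m.eval₂ i x = 0 ∧ 0 < m.natDegree ∧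
      ∀ f : Polynomial K, f.eval₂ i x = 0 → m ∣ f := by
  let _ : Algebra K Ω := i.toAlgebra
  have hint : IsIntegral K x := ⟨P, hPm, hP⟩
  refine ⟨minpoly K x, minpoly.monic hint, ?_, minpoly.natDegree_pos hint, fun f hf => ?_⟩
  · have := minpoly.aeval K x
    rwa [Polynomial.aeval_def] at this
  · exact minpoly.dvd K x (by rw [Polynomial.aeval_def]; exact hf)

/-- A nonconstant divisor of a product of linear factors has one of their roots. -/
theorem exists_root_of_dvd_prod {ι : Type*} (s : Finset ι) (a : ι → Ω) (D : Polynomial Ω)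
    (hD : 0 < D.natDegree) (hdvd : D ∣ ∏ d ∈ s, (X - C (a d))) :
    ∃ d ∈ s, D.eval (a d) = 0 := by
  obtain ⟨g, hg, hgD⟩ := Polynomial.exists_irreducible_of_natDegree_pos hD
  have hgprod : g ∣ ∏ d ∈ s, (X - C (a d)) := hgD.trans hdvd
  obtain ⟨d, hd, hgd⟩ := (hg.prime).exists_mem_finset_dvd hgprod
  refine ⟨d, hd, ?_⟩
  obtain ⟨u, hu⟩ := hgd
  have hirr := Polynomial.irreducible_X_sub_C (a d)
  have hunit : IsUnit u := by
    rcases hirr.isUnit_or_isUnit hu with h | h
    · exact absurd h hg.not_isUnit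
    · exact h
  have hga : g.eval (a d) = 0 := by
    have h1 : (X - C (a d)).eval (a d) = 0 := by simp
    rw [hu, eval_mul] at h1
    rcases mul_eq_zero.mp h1 with h | h
    · exact h
    · exfalso
      obtain ⟨c, hc, rfl⟩ := Polynomial.isUnit_iff.mp hunit
      rw [eval_C] at h
      exact hc.ne_zero h
  obtain ⟨v, rfl⟩ := hgD
  rw [eval_mul, hga, zero_mul]

section Main

variable {K₀ K₁ G : Type*} [Field K₀] [Field K₁] [CommGroup G] [Fintype G]
  (i₀ : K₀ →+* Ω) (i₁ : K₁ →+* Ω) (inc b : K₀ →+* K₁) (w : K₁ →+* K₁) (β : Ω →+* Ω)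
  (t : G → Ω)

/-- The set of `e` such that `t e` is a conjugate of `t 1` over `K₀`. -/
def IsConj (e : G) : Prop := ∀ f : Polynomial K₀, f.eval₂ i₀ (t 1) = 0 → f.eval₂ i₀ (t e) = 0

theorem isConj_one : IsConj i₀ t (1 : G) := fun _ hf => hf

variable {i₀ t}

theorem IsConj.mul (hdia : ∀ e : G, ∃ R : Polynomial K₀, ∀ d, R.eval₂ i₀ (t d) = t (e * d))
    {e e' : G} (he : IsConj i₀ t e) (he' : IsConj i₀ t e') : IsConj i₀ t (e' * e) := by
  intro f hf
  obtain ⟨R, hR⟩ := hdia e'
  have h1 : (f.comp R).eval₂ i₀ (t 1) = 0 := by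
    rw [Polynomial.eval₂_comp, hR 1, mul_one]
    exact he' f hf
  have h2 := he (f.comp R) h1
  rwa [Polynomial.eval₂_comp, hR e] at h2

theorem IsConj.pow (hdia : ∀ e : G, ∃ R : Polynomial K₀, ∀ d, R.eval₂ i₀ (t d) = t (e * d))
    {e : G} (he : IsConj i₀ t e) (n : ℕ) : IsConj i₀ t (e ^ n) := by
  induction n with
  | zero => rw [pow_zero]; exact isConj_one i₀ t
  | succ n ih => rw [pow_succ']; exact ih.mul hdia he

theorem IsConj.inv (hdia : ∀ e : G, ∃ R : Polynomial K₀, ∀ d, R.eval₂ i₀ (t d) = t (e * d))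
    {e : G} (he : IsConj i₀ t e) : IsConj i₀ t e⁻¹ := by
  have h1 : e⁻¹ = e ^ (orderOf e - 1) := by
    apply inv_eq_of_mul_eq_one_right
    rw [← pow_succ', Nat.sub_add_cancel (orderOf_pos e), pow_orderOf_eq_one]
  rw [h1]
  exact he.pow hdia _

variable (i₀ t)

/-- **The twist lemma.**  `t c` is a conjugate of `t 1` over `K₀`. -/
theorem conj_of_twist (hinc : i₁.comp inc = i₀) (hb : i₁.comp b = β.comp i₀)
    (hwinc : w.comp inc = b) (hwb : w.comp b = inc)
    (P : Polynomial K₀) (hPm : P.Monic) (hP : P.map i₀ = ∏ d : G, (X - C (t d)))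
    (hdia : ∀ e : G, ∃ R : Polynomial K₀, ∀ d, R.eval₂ i₀ (t d) = t (e * d))
    (c : G) (R : Polynomial K₁) (hR : ∀ d, R.eval₂ i₁ (t d) = β (t d))
    (hRw : ∀ d, (R.map w).eval₂ i₁ (β (t d)) = t (d * c)) :
    IsConj i₀ t c := by
  classical
  -- `P` kills every `t d`
  have hPt : ∀ d : G, P.eval₂ i₀ (t d) = 0 := by
    intro d
    rw [Polynomial.eval₂_eq_eval_map, hP, Polynomial.eval_prod]
    exact Finset.prod_eq_zero (Finset.mem_univ d) (by simp)
  obtain ⟨M₀, hM₀m, hM₀, -, hM₀dvd⟩ := exists_gen i₀ (t 1) P hPm (hPt 1)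
  have hP1 : (P.map inc).eval₂ i₁ (t 1) = 0 := by
    rw [Polynomial.eval₂_map, hinc]; exact hPt 1
  obtain ⟨M₁, hM₁m, hM₁, hM₁deg, hM₁dvd⟩ :=
    exists_gen i₁ (t 1) (P.map inc) (hPm.map inc) hP1
  -- conjugacy in terms of `M₀`
  have hconj : ∀ e : G, M₀.eval₂ i₀ (t e) = 0 → IsConj i₀ t e := by
    intro e he f hf
    exact Polynomial.eval₂_eq_zero_of_dvd_of_eval₂_eq_zero i₀ (t e) (hM₀dvd f hf) he
  -- `M₁ ∣ (b M₀) ∘ R`
  have hQ₁ : ((M₀.map b).comp R).eval₂ i₁ (t 1) = 0 := by
    rw [Polynomial.eval₂_comp, hR 1, Polynomial.eval₂_map, hb, ← Polynomial.hom_eval₂, hM₀,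
      map_zero]
  have hd1 : M₁ ∣ (M₀.map b).comp R := hM₁dvd _ hQ₁
  have hd1w : M₁.map w ∣ (M₀.map inc).comp (R.map w) := by
    have := Polynomial.map_dvd w hd1
    rwa [Polynomial.map_comp, Polynomial.map_map, hwb] at this
  -- `M₁ ∣ inc M₀`
  have hd2 : M₁ ∣ M₀.map inc := by
    apply hM₁dvd
    rw [Polynomial.eval₂_map, hinc]; exact hM₀
  have hd2w : M₁.map w ∣ M₀.map b := by
    have := Polynomial.map_dvd w hd2
    rwa [Polynomial.map_map, hwinc] at this
  -- the divisor `D` of `∏ (X - β (t d))`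
  have hM₀P : M₀ ∣ P := hM₀dvd P (hPt 1)
  have hD : (M₁.map w).map i₁ ∣ ∏ d : G, (X - C (β (t d))) := by
    have h1 : (M₁.map w).map i₁ ∣ (M₀.map b).map i₁ := Polynomial.map_dvd i₁ hd2w
    have h2 : (M₀.map b).map i₁ ∣ (P.map b).map i₁ :=
      Polynomial.map_dvd i₁ (Polynomial.map_dvd b hM₀P)
    have h3 : (P.map b).map i₁ = ∏ d : G, (X - C (β (t d))) := by
      rw [Polynomial.map_map, hb, ← Polynomial.map_map, hP, Polynomial.map_prod]
      refine Finset.prod_congr rfl fun d _ => ?_
      rw [Polynomial.map_sub, Polynomial.map_X, Polynomial.map_C]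
    rw [← h3]
    exact h1.trans h2
  have hDdeg : 0 < ((M₁.map w).map i₁).natDegree := by
    rw [Polynomial.natDegree_map, Polynomial.natDegree_map]
    exact hM₁deg
  obtain ⟨e, -, he⟩ := exists_root_of_dvd_prod Finset.univ (fun d => β (t d)) _ hDdeg hD
  have he' : (M₁.map w).eval₂ i₁ (β (t e)) = 0 := by
    rw [Polynomial.eval₂_eq_eval_map]; exact he
  -- (i) `e` is a conjugate
  have hβinj : Function.Injective β := β.injective
  have hei : IsConj i₀ t e := by
    apply hconj
    have h1 := Polynomial.eval₂_eq_zero_of_dvd_of_eval₂_eq_zero i₁ (β (t e)) hd2w he'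
    rw [Polynomial.eval₂_map, hb, ← Polynomial.hom_eval₂] at h1
    exact hβinj (by rw [h1, map_zero])
  -- (ii) `e * c` is a conjugate
  have heci : IsConj i₀ t (e * c) := by
    apply hconj
    have h1 := Polynomial.eval₂_eq_zero_of_dvd_of_eval₂_eq_zero i₁ (β (t e)) hd1w he'
    rw [Polynomial.eval₂_comp, hRw e, Polynomial.eval₂_map, hinc] at h1
    exact h1
  -- (iii) `c = (e * c) * e⁻¹`
  have := (hei.inv hdia).mul hdia heci
  rwa [mul_inv_cancel_comm] at this

end Main

section Indep

variable {K₀ G : Type*} [Field K₀] [Fintype G] [One G] (i₀ : K₀ →+* Ω) (t : G → Ω)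

/-- If every `t e` is a conjugate of `t 1`, a polynomial of degree `< |G|` over `K₀` vanishing
at `t 1` is zero. -/
theorem eq_zero_of_conj (ht : Function.Injective t)
    (hall : ∀ (e : G) (f : Polynomial K₀), f.eval₂ i₀ (t 1) = 0 → f.eval₂ i₀ (t e) = 0)
    (f : Polynomial K₀) (hf : f.eval₂ i₀ (t 1) = 0) (hdeg : f.natDegree < Fintype.card G) :
    f = 0 := by
  classical
  by_contra hne
  have hne' : f.map i₀ ≠ 0 := by
    rwa [Ne, Polynomial.map_eq_zero]
  have hroots : ∀ e : G, t e ∈ (f.map i₀).roots := by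
    intro e
    rw [Polynomial.mem_roots hne', Polynomial.IsRoot, ← Polynomial.eval₂_eq_eval_map]
    exact hall e f hf
  have hsub : (Finset.univ.image t) ⊆ (f.map i₀).roots.toFinset := by
    intro x hx
    obtain ⟨e, -, rfl⟩ := Finset.mem_image.mp hx
    exact Multiset.mem_toFinset.mpr (hroots e)
  have h1 : Fintype.card G ≤ (f.map i₀).roots.toFinset.card := by
    rw [← Finset.card_univ, ← Finset.card_image_of_injective _ ht]
    exact Finset.card_le_card hsub
  have h2 : (f.map i₀).roots.toFinset.card ≤ f.natDegree :=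
    (Multiset.toFinset_card_le _).trans
      ((Polynomial.card_roots' _).trans (Polynomial.natDegree_map_le))
  omega

/-- Linear independence of `1, t 1, …, (t 1)^(n-1)` over `K₀` (as a statement on coefficient
families), `n = |G|`. -/
theorem sum_pow_eq_zero (ht : Function.Injective t)
    (hall : ∀ (e : G) (f : Polynomial K₀), f.eval₂ i₀ (t 1) = 0 → f.eval₂ i₀ (t e) = 0)
    (c : Fin (Fintype.card G) → K₀) (hc : ∑ j, i₀ (c j) * t 1 ^ (j : ℕ) = 0) : ∀ j, c j = 0 := by
  classical
  set f : Polynomial K₀ := ∑ j : Fin (Fintype.card G), Polynomial.C (c j) * X ^ (j : ℕ) with hf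
  have hev : f.eval₂ i₀ (t 1) = 0 := by
    rw [hf, Polynomial.eval₂_finsetSum, ← hc]
    refine Finset.sum_congr rfl fun j _ => ?_
    rw [Polynomial.eval₂_mul, Polynomial.eval₂_C, Polynomial.eval₂_pow, Polynomial.eval₂_X]
  have hdeg : f.natDegree < Fintype.card G := by
    by_cases hG : Fintype.card G = 0
    · -- impossible: `G` has the element `1`
      exact absurd hG (Fintype.card_ne_zero)
    · have hle : f.natDegree ≤ Fintype.card G - 1 := by
        rw [hf]
        refine Polynomial.natDegree_sum_le_of_forall_le _ _ fun j _ => ?_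
        refine (Polynomial.natDegree_C_mul_X_pow_le _ _).trans ?_
        have := j.2
        omega
      omega
  have h0 := eq_zero_of_conj i₀ t ht hall f hev hdeg
  intro j
  have hcoeff : f.coeff (j : ℕ) = c j := by
    rw [hf, Polynomial.finsetSum_coeff]
    rw [Finset.sum_eq_single j]
    · rw [Polynomial.coeff_C_mul, Polynomial.coeff_X_pow, if_pos rfl, mul_one]
    · intro j' _ hj'
      rw [Polynomial.coeff_C_mul, Polynomial.coeff_X_pow, if_neg, mul_zero]
      intro h
      exact hj' (Fin.ext h.symm)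
    · intro h
      exact absurd (Finset.mem_univ j) h
  rw [← hcoeff, h0, Polynomial.coeff_zero]

end Indep

end Fermat.Agent.G1.V.Mono
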