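/-
G1-V (helper4): the monodromy lemma in power-sum form (Mathlib only).

`Mono.conj_of_twist` with the polynomial hypotheses (diamond polynomials, the polynomial `R`
expressing `β (t d)` through `t d`, and its Atkin–Lehner transform) produced by Lagrange
interpolation from the following data "defined over the small fields":

* `P` monic over `K₀` with `P = ∏ (X - t d)`;
* the power sums `∑ t_d^m` and the diamond sums `∑ t_(e d) t_d^j` lie in `K₀`;
* the mixed sums `q_j = ∑ β(t_d) t_d^j` lie in `K₁`, and `w q_j = ∑ t_(d c) β(t_d)^j`.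
-/
import Mathlib
import Fermat.Agent.G1.V.Mono
import Fermat.Agent.G1.V.Lagrange

set_option autoImplicit false
set_option linter.unusedSectionVars false

namespace Fermat.Agent.G1.V.Mono

open Polynomial

variable {Ω K₀ K₁ G : Type*} [Field Ω] [Field K₀] [Field K₁] [CommGroup G] [Fintype G]
  (i₀ : K₀ →+* Ω) (i₁ : K₁ →+* Ω) (inc b : K₀ →+* K₁) (w : K₁ →+* K₁) (β : Ω →+* Ω)
  (t : G → Ω)

/-- **The twist lemma, power-sum form.** -/
theorem conj_of_twist_powerSum (hinc : i₁.comp inc = i₀) (hb : i₁.comp b = β.comp i₀)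
    (hwinc : w.comp inc = b) (hwb : w.comp b = inc) (ht : Function.Injective t)
    (P : Polynomial K₀) (hPm : P.Monic) (hP : P.map i₀ = ∏ d : G, (X - C (t d)))
    (hps : ∀ m : ℕ, ∃ a : K₀, i₀ a = ∑ d, t d ^ m)
    (hds : ∀ (e : G) (j : ℕ), ∃ a : K₀, i₀ a = ∑ d, t (e * d) * t d ^ j)
    (c : G)
    (hq : ∀ j : ℕ, ∃ a : K₁, i₁ a = ∑ d, β (t d) * t d ^ j ∧
      i₁ (w a) = ∑ d, t (d * c) * β (t d) ^ j) :
    IsConj i₀ t c := by
  classical
  choose a ha using hps
  -- diamond polynomials
  have hdia : ∀ e : G, ∃ R : Polynomial K₀, ∀ d, R.eval₂ i₀ (t d) = t (e * d) := by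
    intro e
    choose bd hbd using hds e
    obtain ⟨cf, hcf⟩ := Lagrange.exists_system_solution i₀ t ht a ha bd
    exact ⟨_, Lagrange.eval₂_eq_of_system i₀ t (fun d => t (e * d)) ht a bd ha hbd cf hcf⟩
  -- the polynomial `R` over `K₁`
  choose q hq1 hq2 using hq
  have ha1 : ∀ m, i₁ (inc (a m)) = ∑ d, t d ^ m := by
    intro m
    rw [← ha m, ← hinc]; rfl
  obtain ⟨cf, hcf⟩ := Lagrange.exists_system_solution i₁ t ht (fun m => inc (a m)) ha1 q
  set R : Polynomial K₁ := ∑ m : Fin (Fintype.card G), Polynomial.C (cf m) * X ^ (m : ℕ) with hRdef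
  have hR : ∀ d, R.eval₂ i₁ (t d) = β (t d) :=
    Lagrange.eval₂_eq_of_system i₁ t (fun d => β (t d)) ht (fun m => inc (a m)) q ha1 hq1 cf hcf
  -- its transform
  have hβt : Function.Injective (fun d => β (t d)) := β.injective.comp ht
  have haw : ∀ m, i₁ (w (inc (a m))) = ∑ d, β (t d) ^ m := by
    intro m
    have h1 : w (inc (a m)) = b (a m) := by rw [← hwinc]; rfl
    have h2 : i₁ (b (a m)) = β (i₀ (a m)) := by
      have := congrArg (fun f : K₀ →+* Ω => f (a m)) hb
      exact this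
    rw [h1, h2, ha m, map_sum]
    exact Finset.sum_congr rfl fun d _ => by rw [map_pow]
  have hRw : ∀ d, (R.map w).eval₂ i₁ (β (t d)) = t (d * c) := by
    rw [hRdef, Lagrange.map_poly]
    exact Lagrange.eval₂_eq_of_system i₁ (fun d => β (t d)) (fun d => t (d * c)) hβt
      (fun m => w (inc (a m))) (fun j => w (q j)) haw hq2 (fun m => w (cf m))
      (Lagrange.map_system w (fun m => inc (a m)) q cf hcf)
  exact conj_of_twist i₀ i₁ inc b w β t hinc hb hwinc hwb P hPm hP hdia c R hR hRw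

end Fermat.Agent.G1.V.Mono
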