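/-
G1-V / G1-INERT (helper4): the conjugates `x_g`, `g ∈ (ℤ/M)ˣ/±1`, and the forms of (H2)–(H4)
indexed by `DG M = (ℤ/M)ˣ/±1` (obtained from the unit-indexed forms by averaging).

* `tG M R g : LaurentSeries R` with `tG_mk : tG M R (mk u) = xgenR R M u`, `coeffMap_tG`,
  `tG_injective` (`3 ≤ M`, `R` nontrivial);
* `H2.dg`, `H3.dg`, `H4.dg` : (H2)–(H4) for polynomials in variables indexed by `DG M`.
-/
import Mathlib
import Fermat.Agent.G1.Gen
import Fermat.Agent.G1.V.Defs
import Fermat.Agent.G1.V.Hyp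

set_option autoImplicit false
set_option linter.unusedSectionVars false

namespace Fermat.Agent.G1.V

open ModularCurve HahnSeries

variable (M : ℕ) [NeZero M]

/-- `x_g` for a class `g ∈ (ℤ/M)ˣ/±1`, with coefficients in `R`. -/
noncomputable def tG (R : Type*) [CommRing R] (g : DG M) : LaurentSeries R :=
  Quotient.liftOn' g (fun u : (ZMod M)ˣ => xgenR R M (u : ZMod M)) (by
    intro a b hab
    rw [QuotientGroup.leftRel_apply] at hab
    obtain ⟨k, hk⟩ := Subgroup.mem_zpowers_iff.mp hab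
    show xgenR R M (a : ZMod M) = xgenR R M (b : ZMod M)
    have hb : b = a * (-1 : (ZMod M)ˣ) ^ k := by rw [hk]; group
    rcases Int.even_or_odd k with h | h
    · rw [hb, h.neg_one_zpow, mul_one]
    · rw [hb, h.neg_one_zpow, mul_neg, mul_one, Units.val_neg, xgenR_neg])

theorem tG_mk (R : Type*) [CommRing R] (u : (ZMod M)ˣ) :
    tG M R (QuotientGroup.mk u) = xgenR R M (u : ZMod M) := rfl

theorem tG_mk_rat (u : (ZMod M)ˣ) : tG M ℚ (QuotientGroup.mk u) = xgen M u := rfl

theorem coeffMap_tG {R S : Type*} [CommRing R] [CommRing S] (f : R →+* S) (g : DG M) :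
    coeffMap f (tG M R g) = tG M S g := by
  induction g using QuotientGroup.induction_on with
  | H u => rw [tG_mk, tG_mk, coeffMap_xgenR]

/-- The `x_g` are pairwise distinct (`M ≥ 3`). -/
theorem tG_injective (hM : 3 ≤ M) (R : Type*) [CommRing R] [Nontrivial R] :
    Function.Injective (tG M R) := by
  intro g g' h
  induction g using QuotientGroup.induction_on with
  | H u =>
    induction g' using QuotientGroup.induction_on with
    | H u' =>
      rw [tG_mk, tG_mk, xgenR_eq_iff R (unit_ne_neg hM u) (unit_ne_neg hM u')] at h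
      rw [QuotientGroup.eq]
      rcases h with h | h
      · have : u = u' := Units.ext h
        rw [this, inv_mul_cancel]
        exact Subgroup.one_mem _
      · have : u = -u' := Units.ext (by rw [Units.val_neg]; exact h)
        rw [this, inv_neg, neg_mul, inv_mul_cancel]
        exact Subgroup.mem_zpowers _

theorem mk_out (g : DG M) : (QuotientGroup.mk (Quotient.out g) : DG M) = g :=
  QuotientGroup.out_eq' g

/-! ### (H2) indexed by `DG M` -/

/-- **(H2)**, indexed by `DG M`: a polynomial expression in the `x_g`, invariant under the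
translations of `DG M`, lies in `F0(M)`. -/
theorem H2.dg (h : H2 M) (Φ : MvPolynomial (DG M) ℚ)
    (hΦ : ∀ g₀ : DG M, MvPolynomial.rename (fun g => g₀ * g) Φ = Φ) :
    MvPolynomial.aeval (tG M ℚ) Φ ∈ modularFunctionFieldFull M := by
  classical
  set Ψ : MvPolynomial (ZMod M)ˣ ℚ :=
    ∑ c : (ZMod M)ˣ, MvPolynomial.rename (fun g : DG M => c * Quotient.out g) Φ with hΨ
  have hinv : ∀ c : (ZMod M)ˣ, MvPolynomial.rename (fun u => c * u) Ψ = Ψ := by
    intro c
    rw [hΨ, map_sum, ← Equiv.sum_comp (Equiv.mulLeft c)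
      (fun c' => MvPolynomial.rename (fun g : DG M => c' * Quotient.out g) Φ)]
    refine Finset.sum_congr rfl fun c' _ => ?_
    rw [MvPolynomial.rename_rename]
    have hf : ((fun u => c * u) ∘ fun g : DG M => c' * Quotient.out g) =
        fun g : DG M => (Equiv.mulLeft c) c' * Quotient.out g := by
      funext g
      simp [mul_assoc]
    rw [hf]
  have hval : MvPolynomial.aeval (xgen M) Ψ =
      (Fintype.card (ZMod M)ˣ : LaurentSeries ℚ) * MvPolynomial.aeval (tG M ℚ) Φ := by
    rw [hΨ, map_sum]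
    have key : ∀ c : (ZMod M)ˣ, MvPolynomial.aeval (xgen M)
        (MvPolynomial.rename (fun g : DG M => c * Quotient.out g) Φ) =
        MvPolynomial.aeval (tG M ℚ) Φ := by
      intro c
      rw [MvPolynomial.aeval_rename]
      have h1 : (xgen M ∘ fun g : DG M => c * Quotient.out g) =
          tG M ℚ ∘ (fun g => (QuotientGroup.mk c : DG M) * g) := by
        funext g
        show xgen M (c * Quotient.out g) = tG M ℚ (QuotientGroup.mk c * g)
        rw [← tG_mk_rat, QuotientGroup.mk_mul, mk_out]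
      rw [h1, ← MvPolynomial.aeval_rename, hΦ]
    rw [Finset.sum_congr rfl fun c _ => key c, Finset.sum_const, Finset.card_univ, nsmul_eq_mul]
  have hmem := h Ψ hinv
  rw [hval] at hmem
  have : CharZero (LaurentSeries ℚ) := algebraRat.charZero _
  have hne : (Fintype.card (ZMod M)ˣ : LaurentSeries ℚ) ≠ 0 :=
    Nat.cast_ne_zero.mpr Fintype.card_ne_zero
  have hn_mem : (Fintype.card (ZMod M)ˣ : LaurentSeries ℚ) ∈ modularFunctionFieldFull M :=
    natCast_mem _ _
  have h2 := mul_mem (inv_mem hn_mem) hmem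
  rwa [← mul_assoc, inv_mul_cancel₀ hne, one_mul] at h2

/-! ### (H3), (H4) indexed by `DG M` -/

/-- The averaged polynomial in two blocks of variables. -/
noncomputable def avg2 (Φ : MvPolynomial (DG M ⊕ DG M) ℚ) :
    MvPolynomial ((ZMod M)ˣ ⊕ (ZMod M)ˣ) ℚ :=
  ∑ c : (ZMod M)ˣ, MvPolynomial.rename
    (Sum.map (fun g : DG M => c * Quotient.out g) (fun g : DG M => c * Quotient.out g)) Φ

theorem avg2_inv (Φ : MvPolynomial (DG M ⊕ DG M) ℚ) (c : (ZMod M)ˣ) :
    MvPolynomial.rename (Sum.map (fun u => c * u) (fun u => c * u)) (avg2 M Φ) = avg2 M Φ := by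
  classical
  unfold avg2
  rw [map_sum, ← Equiv.sum_comp (Equiv.mulLeft c)
    (fun c' => MvPolynomial.rename
      (Sum.map (fun g : DG M => c' * Quotient.out g) (fun g : DG M => c' * Quotient.out g)) Φ)]
  refine Finset.sum_congr rfl fun c' _ => ?_
  rw [MvPolynomial.rename_rename]
  have hf : (Sum.map (fun u => c * u) (fun u => c * u) ∘
      Sum.map (fun g : DG M => c' * Quotient.out g) (fun g : DG M => c' * Quotient.out g)) =
      Sum.map (fun g : DG M => (Equiv.mulLeft c) c' * Quotient.out g)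
        (fun g : DG M => (Equiv.mulLeft c) c' * Quotient.out g) := by
    funext g
    rcases g with g | g <;> simp [mul_assoc]
  rw [hf]

theorem aeval_avg2 {Ω : Type*} [CommRing Ω] [Algebra ℚ Ω] (X Y : DG M → Ω)
    (Φ : MvPolynomial (DG M ⊕ DG M) ℚ)
    (hΦ : ∀ g₀ : DG M,
      MvPolynomial.rename (Sum.map (fun g => g₀ * g) (fun g => g₀ * g)) Φ = Φ) :
    MvPolynomial.aeval (Sum.elim (fun u : (ZMod M)ˣ => X (QuotientGroup.mk u))
      (fun u : (ZMod M)ˣ => Y (QuotientGroup.mk u))) (avg2 M Φ) =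
      (Fintype.card (ZMod M)ˣ : Ω) * MvPolynomial.aeval (Sum.elim X Y) Φ := by
  classical
  unfold avg2
  rw [map_sum]
  have key : ∀ c : (ZMod M)ˣ, MvPolynomial.aeval
      (Sum.elim (fun u : (ZMod M)ˣ => X (QuotientGroup.mk u))
        (fun u : (ZMod M)ˣ => Y (QuotientGroup.mk u)))
      (MvPolynomial.rename
        (Sum.map (fun g : DG M => c * Quotient.out g) (fun g : DG M => c * Quotient.out g)) Φ) =
      MvPolynomial.aeval (Sum.elim X Y) Φ := by
    intro c
    rw [MvPolynomial.aeval_rename]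
    have h1 : (Sum.elim (fun u : (ZMod M)ˣ => X (QuotientGroup.mk u))
        (fun u : (ZMod M)ˣ => Y (QuotientGroup.mk u)) ∘
        Sum.map (fun g : DG M => c * Quotient.out g) (fun g : DG M => c * Quotient.out g)) =
        Sum.elim X Y ∘ Sum.map (fun g => (QuotientGroup.mk c : DG M) * g)
          (fun g => (QuotientGroup.mk c : DG M) * g) := by
      funext g
      rcases g with g | g
      · show X (QuotientGroup.mk (c * Quotient.out g)) = X (QuotientGroup.mk c * g)
        rw [QuotientGroup.mk_mul, mk_out]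
      · show Y (QuotientGroup.mk (c * Quotient.out g)) = Y (QuotientGroup.mk c * g)
        rw [QuotientGroup.mk_mul, mk_out]
    rw [h1, ← MvPolynomial.aeval_rename, hΦ]
  rw [Finset.sum_congr rfl fun c _ => key c, Finset.sum_const, Finset.card_univ, nsmul_eq_mul]

/-- **(H3)**, indexed by `DG M`. -/
theorem H3.dg {ℓ : ℕ} [NeZero ℓ] (h : H3 M ℓ) (Φ : MvPolynomial (DG M ⊕ DG M) ℚ)
    (hΦ : ∀ g₀ : DG M,
      MvPolynomial.rename (Sum.map (fun g => g₀ * g) (fun g => g₀ * g)) Φ = Φ) :
    MvPolynomial.aeval (Sum.elim (tG M ℚ) (fun g => qExpand ℚ ℓ (tG M ℚ g))) Φ ∈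
      modularFunctionFieldFull (M * ℓ) := by
  have hmem := h (avg2 M Φ) (avg2_inv M Φ)
  have hval := aeval_avg2 M (tG M ℚ) (fun g => qExpand ℚ ℓ (tG M ℚ g)) Φ hΦ
  have hmem' : (Fintype.card (ZMod M)ˣ : LaurentSeries ℚ) *
      MvPolynomial.aeval (Sum.elim (tG M ℚ) (fun g => qExpand ℚ ℓ (tG M ℚ g))) Φ ∈
      modularFunctionFieldFull (M * ℓ) := by
    rw [← hval]
    exact hmem
  have : CharZero (LaurentSeries ℚ) := algebraRat.charZero _
  have hne : (Fintype.card (ZMod M)ˣ : LaurentSeries ℚ) ≠ 0 :=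
    Nat.cast_ne_zero.mpr Fintype.card_ne_zero
  have hn_mem : (Fintype.card (ZMod M)ˣ : LaurentSeries ℚ) ∈ modularFunctionFieldFull (M * ℓ) :=
    natCast_mem _ _
  have h2 := mul_mem (inv_mem hn_mem) hmem'
  rwa [← mul_assoc, inv_mul_cancel₀ hne, one_mul] at h2

/-- **(H4)**, indexed by `DG M`. -/
theorem H4.dg {N ℓ : ℕ} [NeZero N] [NeZero ℓ] {e : (ZMod M)ˣ} {L : Type*} [Field L]
    [Algebra ℚ L] (h : H4 M N ℓ e L)
    (W : laurentBaseChange L (modularFunctionFieldFull (N * ℓ)) →+*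
      laurentBaseChange L (modularFunctionFieldFull (N * ℓ)))
    (hα : ∀ x, W (heckeAlphaBar L N ℓ x) = heckeBetaBar L N ℓ x)
    (hβ : ∀ x, W (heckeBetaBar L N ℓ x) = heckeAlphaBar L N ℓ x)
    (Φ : MvPolynomial (DG M ⊕ DG M) ℚ)
    (hΦ : ∀ g₀ : DG M,
      MvPolynomial.rename (Sum.map (fun g => g₀ * g) (fun g => g₀ * g)) Φ = Φ)
    (y : laurentBaseChange L (modularFunctionFieldFull (N * ℓ)))
    (hy : (y : LaurentSeries L) = coeffEmb L
      (MvPolynomial.aeval (Sum.elim (tG M ℚ) (fun g => qExpand ℚ ℓ (tG M ℚ g))) Φ)) :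
    (W y : LaurentSeries L) = coeffEmb L
      (MvPolynomial.aeval (Sum.elim (fun g => qExpand ℚ ℓ (tG M ℚ g))
        (fun g => tG M ℚ (g * QuotientGroup.mk e))) Φ) := by
  set n : ℕ := Fintype.card (ZMod M)ˣ with hn
  have hval1 := aeval_avg2 M (tG M ℚ) (fun g => qExpand ℚ ℓ (tG M ℚ g)) Φ hΦ
  have hval2 := aeval_avg2 M (fun g => qExpand ℚ ℓ (tG M ℚ g))
    (fun g => tG M ℚ (g * QuotientGroup.mk e)) Φ hΦ
  have hy' : (((n : ↥(laurentBaseChange L (modularFunctionFieldFull (N * ℓ)))) * y :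
      ↥(laurentBaseChange L (modularFunctionFieldFull (N * ℓ)))) : LaurentSeries L) =
      coeffEmb L (MvPolynomial.aeval
        (Sum.elim (xgen M) (fun u => qExpand ℚ ℓ (xgen M u))) (avg2 M Φ)) := by
    have e1 : MvPolynomial.aeval (Sum.elim (xgen M) (fun u => qExpand ℚ ℓ (xgen M u)))
        (avg2 M Φ) = (n : LaurentSeries ℚ) *
        MvPolynomial.aeval (Sum.elim (tG M ℚ) (fun g => qExpand ℚ ℓ (tG M ℚ g))) Φ := hval1
    rw [e1, map_mul, map_natCast, ← hy]
    push_cast
    rfl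
  have hW := h W hα hβ (avg2 M Φ) (avg2_inv M Φ) _ hy'
  have e2 : MvPolynomial.aeval
      (Sum.elim (fun u => qExpand ℚ ℓ (xgen M u)) (fun u => xgen M (u * e))) (avg2 M Φ) =
      (n : LaurentSeries ℚ) * MvPolynomial.aeval (Sum.elim (fun g => qExpand ℚ ℓ (tG M ℚ g))
        (fun g => tG M ℚ (g * QuotientGroup.mk e))) Φ := hval2
  rw [e2, map_mul, map_natCast, map_mul, map_natCast] at hW
  have : CharZero (LaurentSeries L) := algebraRat.charZero _
  have hne : (n : LaurentSeries L) ≠ 0 := Nat.cast_ne_zero.mpr Fintype.card_ne_zero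
  have hW' : (n : LaurentSeries L) * (W y : LaurentSeries L) = (n : LaurentSeries L) * coeffEmb L
      (MvPolynomial.aeval (Sum.elim (fun g => qExpand ℚ ℓ (tG M ℚ g))
        (fun g => tG M ℚ (g * QuotientGroup.mk e))) Φ) := by
    rw [← hW]
    push_cast
    rfl
  exact mul_left_cancel₀ hne hW'

end Fermat.Agent.G1.V
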