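/-
G1-V / G1-INERT (helper4): the symmetric expressions in the conjugates `x_g` used by the
monodromy argument, over an arbitrary coefficient ring, and their membership in the function
fields of `X_0` in characteristic `0` (from (H2)–(H4)).

* `psum R m = ∑ x_d^m`, `dsum R e j = ∑ x_(e d) x_d^j`, `cpoly R = ∏ (X - x_d)`,
  `msum R ℓ j = ∑ x_d(q^ℓ) x_d^j`, `wsum R ℓ c j = ∑ x_(d c) x_d(q^ℓ)^j`;
* all commute with `coeffMap`;
* `psum_mem`, `dsum_mem`, `cpoly_coeff_mem` (from (H2)), `msum_mem` (from (H3)), `W_msum` (from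
  (H4)).
-/
import Mathlib
import Fermat.Agent.G1.V.Index
import Fermat.Prelude.Thm_ModularCurve_coeffMap_qExpand

set_option autoImplicit false
set_option linter.unusedSectionVars false

namespace Fermat.Agent.G1.V

open ModularCurve HahnSeries

variable (M : ℕ) [NeZero M] [Fintype (DG M)]

section Defs

variable (R : Type*) [CommRing R]

/-- Power sums of the conjugates. -/
noncomputable def psum (m : ℕ) : LaurentSeries R := ∑ d : DG M, tG M R d ^ m

/-- Diamond sums. -/
noncomputable def dsum (e : DG M) (j : ℕ) : LaurentSeries R :=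
  ∑ d : DG M, tG M R (e * d) * tG M R d ^ j

/-- The characteristic polynomial `∏ (X - x_d)`. -/
noncomputable def cpoly : Polynomial (LaurentSeries R) :=
  ∏ d : DG M, (Polynomial.X - Polynomial.C (tG M R d))

/-- Mixed sums `∑ x_d(q^ℓ) x_d^j`. -/
noncomputable def msum (ℓ : ℕ) [NeZero ℓ] (j : ℕ) : LaurentSeries R :=
  ∑ d : DG M, qExpand R ℓ (tG M R d) * tG M R d ^ j

/-- Their Atkin–Lehner transforms `∑ x_(d c) x_d(q^ℓ)^j`. -/
noncomputable def wsum (ℓ : ℕ) [NeZero ℓ] (c : DG M) (j : ℕ) : LaurentSeries R :=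
  ∑ d : DG M, tG M R (d * c) * qExpand R ℓ (tG M R d) ^ j

end Defs

section CoeffMap

variable {R S : Type*} [CommRing R] [CommRing S] (f : R →+* S)

theorem coeffMap_psum (m : ℕ) : coeffMap f (psum M R m) = psum M S m := by
  unfold psum
  rw [map_sum]
  exact Finset.sum_congr rfl fun d _ => by rw [map_pow, coeffMap_tG]

theorem coeffMap_dsum (e : DG M) (j : ℕ) : coeffMap f (dsum M R e j) = dsum M S e j := by
  unfold dsum
  rw [map_sum]
  exact Finset.sum_congr rfl fun d _ => by rw [map_mul, map_pow, coeffMap_tG, coeffMap_tG]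

theorem map_cpoly : (cpoly M R).map (coeffMap f) = cpoly M S := by
  unfold cpoly
  rw [Polynomial.map_prod]
  exact Finset.prod_congr rfl fun d _ => by
    rw [Polynomial.map_sub, Polynomial.map_X, Polynomial.map_C, coeffMap_tG]

theorem coeffMap_msum (ℓ : ℕ) [NeZero ℓ] (j : ℕ) :
    coeffMap f (msum M R ℓ j) = msum M S ℓ j := by
  unfold msum
  rw [map_sum]
  exact Finset.sum_congr rfl fun d _ => by
    rw [map_mul, map_pow, coeffMap_qExpand, coeffMap_tG]

theorem coeffMap_wsum (ℓ : ℕ) [NeZero ℓ] (c : DG M) (j : ℕ) :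
    coeffMap f (wsum M R ℓ c j) = wsum M S ℓ c j := by
  unfold wsum
  rw [map_sum]
  exact Finset.sum_congr rfl fun d _ => by
    rw [map_mul, map_pow, coeffMap_qExpand, coeffMap_tG, coeffMap_tG]

end CoeffMap

/-! ### Characteristic `0` -/

/-- The power sums lie in `F0(M)`. -/
theorem psum_mem (h2 : H2 M) (m : ℕ) : psum M ℚ m ∈ modularFunctionFieldFull M := by
  have h := h2.dg M (∑ d : DG M, MvPolynomial.X d ^ m) (fun g₀ => by
    rw [map_sum, ← Equiv.sum_comp (Equiv.mulLeft g₀)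
      (fun d : DG M => (MvPolynomial.X d : MvPolynomial (DG M) ℚ) ^ m)]
    refine Finset.sum_congr rfl fun d _ => ?_
    rw [map_pow, MvPolynomial.rename_X]
    rfl)
  rw [map_sum] at h
  have e : ∑ d : DG M, MvPolynomial.aeval (tG M ℚ) ((MvPolynomial.X d : MvPolynomial (DG M) ℚ) ^ m)
      = psum M ℚ m := by
    unfold psum
    exact Finset.sum_congr rfl fun d _ => by rw [map_pow, MvPolynomial.aeval_X]
  rwa [e] at h

/-- The diamond sums lie in `F0(M)`. -/
theorem dsum_mem (h2 : H2 M) (e : DG M) (j : ℕ) :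
    dsum M ℚ e j ∈ modularFunctionFieldFull M := by
  have h := h2.dg M (∑ d : DG M, MvPolynomial.X (e * d) * MvPolynomial.X d ^ j) (fun g₀ => by
    rw [map_sum, ← Equiv.sum_comp (Equiv.mulLeft g₀)
      (fun d : DG M => (MvPolynomial.X (e * d) : MvPolynomial (DG M) ℚ) * MvPolynomial.X d ^ j)]
    refine Finset.sum_congr rfl fun d _ => ?_
    rw [map_mul, map_pow, MvPolynomial.rename_X, MvPolynomial.rename_X]
    show MvPolynomial.X (g₀ * (e * d)) * MvPolynomial.X (g₀ * d) ^ j =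
      MvPolynomial.X (e * (g₀ * d)) * MvPolynomial.X (g₀ * d) ^ j
    rw [mul_left_comm g₀ e d])
  rw [map_sum] at h
  have e' : ∑ d : DG M, MvPolynomial.aeval (tG M ℚ)
      ((MvPolynomial.X (e * d) : MvPolynomial (DG M) ℚ) * MvPolynomial.X d ^ j)
      = dsum M ℚ e j := by
    unfold dsum
    exact Finset.sum_congr rfl fun d _ => by
      rw [map_mul, map_pow, MvPolynomial.aeval_X, MvPolynomial.aeval_X]
  rwa [e'] at h

/-- The coefficients of `∏ (X - x_d)` lie in `F0(M)`. -/
theorem cpoly_coeff_mem (h2 : H2 M) (i : ℕ) :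
    (cpoly M ℚ).coeff i ∈ modularFunctionFieldFull M := by
  set Pm : Polynomial (MvPolynomial (DG M) ℚ) :=
    ∏ d : DG M, (Polynomial.X - Polynomial.C (MvPolynomial.X d)) with hPm
  have hmap : ∀ (S : Type) [CommRing S] (φ : MvPolynomial (DG M) ℚ →+* S),
      Pm.map φ = ∏ d : DG M, (Polynomial.X - Polynomial.C (φ (MvPolynomial.X d))) := by
    intro S _ φ
    rw [hPm, Polynomial.map_prod]
    exact Finset.prod_congr rfl fun d _ => by
      rw [Polynomial.map_sub, Polynomial.map_X, Polynomial.map_C]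
  have h := h2.dg M (Pm.coeff i) (fun g₀ => by
    have h1 : MvPolynomial.rename (fun g => g₀ * g) (Pm.coeff i) =
        (Pm.map (MvPolynomial.rename (fun g => g₀ * g) :
          MvPolynomial (DG M) ℚ →ₐ[ℚ] MvPolynomial (DG M) ℚ).toRingHom).coeff i := by
      rw [Polynomial.coeff_map]
      rfl
    rw [h1, hmap, hPm, ← Equiv.prod_comp (Equiv.mulLeft g₀)
      (fun d : DG M => (Polynomial.X - Polynomial.C (MvPolynomial.X d) :
        Polynomial (MvPolynomial (DG M) ℚ)))]
    congr 1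
    refine Finset.prod_congr rfl fun d _ => ?_
    show Polynomial.X - Polynomial.C (MvPolynomial.rename (fun g => g₀ * g) (MvPolynomial.X d)) = _
    rw [MvPolynomial.rename_X]
    rfl)
  have h1 : MvPolynomial.aeval (tG M ℚ) (Pm.coeff i) =
      (Pm.map (MvPolynomial.aeval (tG M ℚ) :
        MvPolynomial (DG M) ℚ →ₐ[ℚ] LaurentSeries ℚ).toRingHom).coeff i := by
    rw [Polynomial.coeff_map]
    rfl
  rw [h1, hmap] at h
  have h2' : (∏ d : DG M, (Polynomial.X - Polynomial.C ((MvPolynomial.aeval (tG M ℚ) :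
      MvPolynomial (DG M) ℚ →ₐ[ℚ] LaurentSeries ℚ).toRingHom (MvPolynomial.X d)))) =
      cpoly M ℚ := by
    unfold cpoly
    refine Finset.prod_congr rfl fun d _ => ?_
    show Polynomial.X - Polynomial.C (MvPolynomial.aeval (tG M ℚ) (MvPolynomial.X d)) = _
    rw [MvPolynomial.aeval_X]
  rwa [h2'] at h

/-- The two-block polynomial of the mixed sums. -/
noncomputable def mPoly (j : ℕ) : MvPolynomial (DG M ⊕ DG M) ℚ :=
  ∑ d : DG M, MvPolynomial.X (Sum.inr d) * MvPolynomial.X (Sum.inl d) ^ j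

theorem mPoly_inv (j : ℕ) (g₀ : DG M) :
    MvPolynomial.rename (Sum.map (fun g => g₀ * g) (fun g => g₀ * g)) (mPoly M j) = mPoly M j := by
  unfold mPoly
  rw [map_sum, ← Equiv.sum_comp (Equiv.mulLeft g₀)
    (fun d : DG M => (MvPolynomial.X (Sum.inr d) : MvPolynomial (DG M ⊕ DG M) ℚ) *
      MvPolynomial.X (Sum.inl d) ^ j)]
  refine Finset.sum_congr rfl fun d _ => ?_
  rw [map_mul, map_pow, MvPolynomial.rename_X, MvPolynomial.rename_X]
  rfl

theorem aeval_mPoly {Ω : Type*} [CommRing Ω] [Algebra ℚ Ω] (X Y : DG M → Ω) (j : ℕ) :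
    MvPolynomial.aeval (Sum.elim X Y) (mPoly M j) = ∑ d : DG M, Y d * X d ^ j := by
  unfold mPoly
  rw [map_sum]
  exact Finset.sum_congr rfl fun d _ => by
    rw [map_mul, map_pow, MvPolynomial.aeval_X, MvPolynomial.aeval_X]
    rfl

/-- The mixed sums lie in `F0(M ℓ)`. -/
theorem msum_mem {ℓ : ℕ} [NeZero ℓ] (h3 : H3 M ℓ) (j : ℕ) :
    msum M ℚ ℓ j ∈ modularFunctionFieldFull (M * ℓ) := by
  have h := h3.dg M (mPoly M j) (mPoly_inv M j)
  rwa [aeval_mPoly] at h

/-- The Atkin–Lehner involution on the mixed sums. -/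
theorem W_msum {N ℓ : ℕ} [NeZero N] [NeZero ℓ] {e : (ZMod M)ˣ} {L : Type*} [Field L]
    [Algebra ℚ L] (h4 : H4 M N ℓ e L)
    (W : laurentBaseChange L (modularFunctionFieldFull (N * ℓ)) →+*
      laurentBaseChange L (modularFunctionFieldFull (N * ℓ)))
    (hα : ∀ x, W (heckeAlphaBar L N ℓ x) = heckeBetaBar L N ℓ x)
    (hβ : ∀ x, W (heckeBetaBar L N ℓ x) = heckeAlphaBar L N ℓ x) (j : ℕ)
    (y : laurentBaseChange L (modularFunctionFieldFull (N * ℓ)))
    (hy : (y : LaurentSeries L) = coeffEmb L (msum M ℚ ℓ j)) :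
    (W y : LaurentSeries L) = coeffEmb L (wsum M ℚ ℓ (QuotientGroup.mk e) j) := by
  have h := h4.dg M W hα hβ (mPoly M j) (mPoly_inv M j) y (by rw [aeval_mPoly]; exact hy)
  rwa [aeval_mPoly] at h

end Fermat.Agent.G1.V
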