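/-
G1-V / G1-INERT (helper4): the Atkin–Lehner involution modulo `p`.

Let `W` be a ring endomorphism of `L·F0(N ℓ)` exchanging the two degeneracy maps
(`W ∘ α = β`, `W ∘ β = α`, `W ∘ W = id`).  Then `W` preserves the Gauss valuation ring
`Ow A π (N ℓ)` (`W_mem`), hence induces an endomorphism `w̄` of the mod-`p` function field
`F0(N ℓ)~` (`exists_wbar`) which exchanges the inclusion `F0(N)~ ⊆ F0(N ℓ)~` and `q ↦ q^ℓ`
(`wbar_incC`, `wbar_bC`).

Also: `q ↦ q^ℓ` and the Gauss ring (`qExpand_mem_gaussRing`, `red_qExpand`,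
`mem_gaussRing_of_qExpand`), and the reduction of integral elements (`coe_redF_of_eq_incl`,
`mem_fullC_of_int`).
-/
import Mathlib
import Fermat.Agent.Lib.Red.Ow
import Fermat.Prelude.Def_ModularCurve_HeckeOperator
import Fermat.Prelude.Thm_ModularCurve_coeffMap_qExpand

set_option autoImplicit false
set_option linter.unusedSectionVars false

namespace Fermat.Agent.G1.V.WBar

open HahnSeries ModularCurve Polynomial Fermat.Agent.S28 Fermat.Agent.Lib.Red

noncomputable section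

/-! ### `q ↦ q^ℓ` and the Gauss ring -/

section QExp

variable {L : Type*} [Field L] (A : ValuationSubring L) {k : Type*} [Field k] (π : A →+* k)
  (ℓ : ℕ) [NeZero ℓ]

theorem qExpand_incl (s : LaurentSeries A) :
    qExpand L ℓ (incl A s) = incl A (qExpand A ℓ s) :=
  (coeffMap_qExpand A.subtype ℓ s).symm

theorem qExpand_rbar (s : LaurentSeries A) :
    qExpand k ℓ (rbar A π s) = rbar A π (qExpand A ℓ s) :=
  (coeffMap_qExpand π ℓ s).symm

theorem qExpand_mem_gaussRing {y : LaurentSeries L} (hy : y ∈ gaussRing A π) :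
    qExpand L ℓ y ∈ gaussRing A π := by
  obtain ⟨s, P, hs, h⟩ := hy
  refine ⟨qExpand A ℓ s, qExpand A ℓ P, ?_, ?_⟩
  · rw [← qExpand_rbar]
    exact fun h0 => hs (qExpand_injective ℓ (by rw [h0, map_zero]))
  · rw [← qExpand_incl, ← qExpand_incl, ← h, map_mul]

theorem red_qExpand {y : LaurentSeries L} (hy : y ∈ gaussRing A π)
    (hy' : qExpand L ℓ y ∈ gaussRing A π) :
    red A π ⟨qExpand L ℓ y, hy'⟩ = qExpand k ℓ (red A π ⟨y, hy⟩) := by
  obtain ⟨s, P, hs, h⟩ := (mem_gaussRing_iff A π y).mp hy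
  have hs' : rbar A π (qExpand A ℓ s) ≠ 0 := by
    rw [← qExpand_rbar]
    exact fun h0 => hs (qExpand_injective ℓ (by rw [h0, map_zero]))
  have h' : incl A (qExpand A ℓ s) * qExpand L ℓ y = incl A (qExpand A ℓ P) := by
    rw [← qExpand_incl, ← qExpand_incl, ← h, map_mul]
  rw [red_eq A π ⟨y, hy⟩ hs h, red_eq A π ⟨qExpand L ℓ y, hy'⟩ hs' h', map_div₀, qExpand_rbar,
    qExpand_rbar]

/-- `q ↦ q^ℓ` reflects membership in the Gauss ring on a field with the invariant `GoodV`. -/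
theorem mem_gaussRing_of_qExpand {F : IntermediateField L (LaurentSeries L)}
    {κ : IntermediateField k (LaurentSeries k)} (h : GoodV A π F κ) {y : LaurentSeries L}
    (hy : y ∈ F) (hq : qExpand L ℓ y ∈ gaussRing A π) : y ∈ gaussRing A π := by
  rcases h.mem_or_inv_mem hy with h1 | h1
  · exact h1
  · by_cases hy0 : y = 0
    · rw [hy0]
      exact (gaussRing A π).zero_mem
    have hq' := qExpand_mem_gaussRing A π ℓ h1
    have hmul : (⟨qExpand L ℓ y, hq⟩ : gaussRing A π) * ⟨qExpand L ℓ y⁻¹, hq'⟩ = 1 :=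
      Subtype.ext (by
        show qExpand L ℓ y * qExpand L ℓ y⁻¹ = 1
        rw [← map_mul, mul_inv_cancel₀ hy0, map_one])
    have hred := congrArg (red A π) hmul
    rw [map_mul, map_one, red_qExpand A π ℓ h1 hq'] at hred
    have hne : red A π ⟨y⁻¹, h1⟩ ≠ 0 := by
      intro h0
      rw [h0, map_zero, mul_zero] at hred
      exact zero_ne_one hred
    have := inv_mem_gaussRing A π h1 hne
    rwa [inv_inv] at this

end QExp

/-! ### Integral elements -/

section IntElt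

variable {L : Type*} [Field L] [Algebra ℚ L] (A : ValuationSubring L) {k : Type} [Field k]
  (π : A →+* k) (N : ℕ) [NeZero N]

theorem incl_coeffMap_int (Y : LaurentSeries ℤ) :
    incl A (coeffMap (Int.castRingHom A) Y) = coeffMap (Int.castRingHom L) Y := by
  unfold incl
  rw [coeffMap_coeffMap]
  exact coeffMap_congr (RingHom.ext_int _ _) Y

theorem rbar_coeffMap_int (Y : LaurentSeries ℤ) :
    rbar A π (coeffMap (Int.castRingHom A) Y) = coeffMap (Int.castRingHom k) Y := by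
  unfold rbar
  rw [coeffMap_coeffMap]
  exact coeffMap_congr (RingHom.ext_int _ _) Y

theorem coeffEmb_coeffMap_int (Y : LaurentSeries ℤ) :
    coeffEmb L (coeffMap (Int.castRingHom ℚ) Y) = coeffMap (Int.castRingHom L) Y := by
  unfold coeffEmb
  rw [coeffMap_coeffMap]
  exact coeffMap_congr (RingHom.ext_int _ _) Y

variable {A π N}

theorem mem_Ow_of_eq_incl (hNk : (N : k) ≠ 0)
    (z : ↥(laurentBaseChange L (modularFunctionFieldFull N))) (Z : LaurentSeries A)
    (hz : (z : LaurentSeries L) = incl A Z) : z ∈ Ow A π N hNk := by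
  show (z : LaurentSeries L) ∈ gaussRing A π
  rw [hz]
  exact incl_mem_gaussRing A π Z

theorem coe_redF_of_eq_incl (hπ : ∀ a : A, ¬ IsUnit a → π a = 0) (hNk : (N : k) ≠ 0)
    (z : ↥(laurentBaseChange L (modularFunctionFieldFull N))) (Z : LaurentSeries A)
    (hz : (z : LaurentSeries L) = incl A Z) (hmem : z ∈ Ow A π N hNk) :
    ((redF A π N hπ hNk ⟨z, hmem⟩ : ↥(modularFunctionFieldFullC k N)) : LaurentSeries k) =
      rbar A π Z := by
  have hZ : incl A Z ∈ laurentBaseChange L (modularFunctionFieldFull N) := hz ▸ z.2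
  have e : z = ⟨incl A Z, hZ⟩ := Subtype.ext hz
  subst e
  exact coe_redF_incl hπ hNk Z hZ

/-- An integral series lying in `F0(N)` reduces into `F0(N)~`. -/
theorem mem_fullC_of_int (hπ : ∀ a : A, ¬ IsUnit a → π a = 0) (hNk : (N : k) ≠ 0)
    (Y : LaurentSeries ℤ) (hY : coeffMap (Int.castRingHom ℚ) Y ∈ modularFunctionFieldFull N) :
    coeffMap (Int.castRingHom k) Y ∈ modularFunctionFieldFullC k N := by
  have h := coeffMap_mem_fullC' A π N hπ hNk (coeffMap (Int.castRingHom A) Y) (by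
    have h1 := incl_coeffMap_int A Y
    unfold incl at h1
    rw [h1, ← coeffEmb_coeffMap_int]
    exact coeffEmb_mem_laurentBaseChange L hY)
  have h2 := rbar_coeffMap_int A π Y
  unfold rbar at h2
  rwa [h2] at h

end IntElt

/-! ### `W` preserves the Gauss valuation ring -/

section W

variable {L : Type*} [Field L] [Algebra ℚ L] (A : ValuationSubring L) {k : Type} [Field k]
  (π : A →+* k) (N ℓ : ℕ) [NeZero N] [NeZero ℓ]

theorem cast_ne_zero_of_mul {k : Type} [Field k] {N ℓ : ℕ} (hk : ((N * ℓ : ℕ) : k) ≠ 0) :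
    (N : k) ≠ 0 := by
  intro h0
  apply hk
  rw [Nat.cast_mul, h0, zero_mul]

variable {A π N ℓ}

theorem W_mem (hπ : ∀ a : A, ¬ IsUnit a → π a = 0) (hℓ : ℓ.Prime)
    (hk : ((N * ℓ : ℕ) : k) ≠ 0)
    (W : ↥(laurentBaseChange L (modularFunctionFieldFull (N * ℓ))) →+*
      ↥(laurentBaseChange L (modularFunctionFieldFull (N * ℓ))))
    (hα : ∀ x, W (heckeAlphaBar L N ℓ x) = heckeBetaBar L N ℓ x)
    (hβ : ∀ x, W (heckeBetaBar L N ℓ x) = heckeAlphaBar L N ℓ x)
    (y : ↥(laurentBaseChange L (modularFunctionFieldFull (N * ℓ))))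
    (hy : (y : LaurentSeries L) ∈ gaussRing A π) :
    (W y : LaurentSeries L) ∈ gaussRing A π := by
  have hN : N ≠ 0 := NeZero.ne N
  have hNℓ : N * ℓ ≠ 0 := Nat.mul_ne_zero hN hℓ.ne_zero
  have hNk : (N : k) ≠ 0 := cast_ne_zero_of_mul hk
  obtain ⟨D⟩ := modEq_all ℓ hℓ
  have hdeg := hdeg_L (L := L) D hℓ.one_lt N (m := 1) one_ne_zero
  have hind := StepModL.hind_of_level k (N * ℓ) hNℓ hk (fun r hr _ => modEq_all r hr)
    (fun r hr _ => baseCase_all r hr) N ℓ 1 hℓ dvd_rfl one_ne_zero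
  have hgen := hgen_L (L := L) N ℓ 1 hN one_ne_zero hℓ (fun r hr _ => modEq_all r hr)
  have hyF : (y : LaurentSeries L) ∈ TD.FF L (N * ℓ) 1 := by
    rw [← laurentBaseChange_eq_FF]
    exact y.2
  rw [hgen] at hyF
  have hy' : (y : LaurentSeries L) ∈ Subfield.closure
      (((TD.FF L N (1 * ℓ)).toSubfield : Set (LaurentSeries L)) ∪ {TD.Jd L 1}) := by
    rw [closure_union_eq_adjoin']
    exact hyF
  obtain ⟨c, hcF, hyc⟩ := Tower.exists_repr (F := (TD.FF L N (1 * ℓ)).toSubfield) hdeg hy'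
  have hG := goodV_FF' A π (N * ℓ) hk N hN (Dvd.intro ℓ rfl) (1 * ℓ)
    (by rw [one_mul]; exact hℓ.ne_zero)
  have hcg : ∀ t, c t ∈ gaussRing A π :=
    hG.coeff_mem hπ (TD.Jd A 1) (by rw [rbar_Jd]; exact hind) c hcF
      (by rw [incl_Jd, ← hyc]; exact hy)
  have hc' : ∀ t, ∃ c' : LaurentSeries L,
      c' ∈ laurentBaseChange L (modularFunctionFieldFull N) ∧ qExpand L ℓ c' = c t := by
    intro t
    have h1 : c t ∈ TD.FF L N (1 * ℓ) := hcF t
    rw [one_mul, StepModL.FF_eq_map L N ℓ hN] at h1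
    obtain ⟨c', hc', e⟩ := h1
    refine ⟨c', ?_, e⟩
    rw [laurentBaseChange_eq_FF]
    exact hc'
  choose c' hc'F hc'e using hc'
  have hc'g : ∀ t, c' t ∈ gaussRing A π := fun t =>
    mem_gaussRing_of_qExpand A π ℓ (goodV_full' A π N hNk) (hc'F t)
      (by rw [hc'e]; exact hcg t)
  have hJ : TD.Jd L 1 ∈ laurentBaseChange L (modularFunctionFieldFull N) := by
    rw [laurentBaseChange_eq_FF]
    exact RouteT.Jd_mem_FF_self L N 1
  have hyel : y = ∑ t, heckeBetaBar L N ℓ ⟨c' t, hc'F t⟩ *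
      heckeAlphaBar L N ℓ ⟨TD.Jd L 1, hJ⟩ ^ (t : ℕ) := by
    apply Subtype.ext
    rw [hyc]
    push_cast
    refine Finset.sum_congr rfl fun t _ => ?_
    rw [coe_heckeBetaBar, coe_heckeAlphaBar, hc'e]
  have hWy : (W y : LaurentSeries L) = ∑ t, c' t * qExpand L ℓ (TD.Jd L 1) ^ (t : ℕ) := by
    rw [hyel, map_sum]
    push_cast
    refine Finset.sum_congr rfl fun t _ => ?_
    rw [map_mul, map_pow, hβ, hα]
    push_cast
    rw [coe_heckeAlphaBar, coe_heckeBetaBar]
  rw [hWy]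
  refine (gaussRing A π).sum_mem fun t _ =>
    (gaussRing A π).mul_mem (hc'g t) ((gaussRing A π).pow_mem ?_ _)
  rw [← incl_Jd A, qExpand_incl]
  exact incl_mem_gaussRing A π _

/-- **The Atkin–Lehner involution modulo `p`.** -/
theorem exists_wbar (hπ : ∀ a : A, ¬ IsUnit a → π a = 0) (hsurj : Function.Surjective π)
    (hℓ : ℓ.Prime) (hk : ((N * ℓ : ℕ) : k) ≠ 0)
    (W : ↥(laurentBaseChange L (modularFunctionFieldFull (N * ℓ))) →+*
      ↥(laurentBaseChange L (modularFunctionFieldFull (N * ℓ))))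
    (hα : ∀ x, W (heckeAlphaBar L N ℓ x) = heckeBetaBar L N ℓ x)
    (hβ : ∀ x, W (heckeBetaBar L N ℓ x) = heckeAlphaBar L N ℓ x)
    (hinv : ∀ z, W (W z) = z) :
    ∃ w : ↥(modularFunctionFieldFullC k (N * ℓ)) →+* ↥(modularFunctionFieldFullC k (N * ℓ)),
      ∀ (y : ↥(laurentBaseChange L (modularFunctionFieldFull (N * ℓ))))
        (hy : y ∈ Ow A π (N * ℓ) hk) (hy' : W y ∈ Ow A π (N * ℓ) hk),
        w (redF A π (N * ℓ) hπ hk ⟨y, hy⟩) = redF A π (N * ℓ) hπ hk ⟨W y, hy'⟩ := by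
  have hWm : ∀ y : Ow A π (N * ℓ) hk,
      W (y : ↥(laurentBaseChange L (modularFunctionFieldFull (N * ℓ)))) ∈ Ow A π (N * ℓ) hk :=
    fun y => W_mem hπ hℓ hk W hα hβ y y.2
  let WO : Ow A π (N * ℓ) hk →+* Ow A π (N * ℓ) hk :=
    (W.comp (Ow A π (N * ℓ) hk).subtype).codRestrict (Ow A π (N * ℓ) hk) hWm
  have hWO : ∀ y : Ow A π (N * ℓ) hk,
      ((WO y : Ow A π (N * ℓ) hk) : ↥(laurentBaseChange L (modularFunctionFieldFull (N * ℓ)))) =
        W y := fun _ => rfl
  let g : Ow A π (N * ℓ) hk →+* ↥(modularFunctionFieldFullC k (N * ℓ)) :=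
    (redF A π (N * ℓ) hπ hk).comp WO
  have hker : RingHom.ker (redF A π (N * ℓ) hπ hk) ≤ RingHom.ker g := by
    intro y hy
    rw [RingHom.mem_ker] at hy ⊢
    show redF A π (N * ℓ) hπ hk (WO y) = 0
    rw [redF_eq_zero_iff] at hy ⊢
    intro hu
    apply hy
    obtain ⟨z, hz⟩ := hu.exists_right_inv
    refine IsUnit.of_mul_eq_one (WO z) ?_
    apply Subtype.ext
    have h1 : W (y : ↥(laurentBaseChange L (modularFunctionFieldFull (N * ℓ)))) *
        (z : ↥(laurentBaseChange L (modularFunctionFieldFull (N * ℓ)))) = 1 := by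
      have := congrArg (Subtype.val) hz
      exact this
    have h2 := congrArg W h1
    rw [map_mul, hinv, map_one] at h2
    exact h2
  refine ⟨RingHom.liftOfSurjective (redF A π (N * ℓ) hπ hk) (redF_surjective hπ hsurj hk)
    ⟨g, hker⟩, ?_⟩
  intro y hy hy'
  exact RingHom.liftOfRightInverse_comp_apply _ _ _ ⟨g, hker⟩ ⟨y, hy⟩

end W

/-! ### The two degeneracy maps modulo `p` -/

section Deg

variable (k : Type) [Field k] (N ℓ : ℕ) [NeZero N] [NeZero ℓ]

/-- The inclusion `F0(N)~ ⊆ F0(N ℓ)~`. -/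
def incC : ↥(modularFunctionFieldFullC k N) →+* ↥(modularFunctionFieldFullC k (N * ℓ)) :=
  (IntermediateField.inclusion (full_degeneracyC_le k (Dvd.intro ℓ rfl))).toRingHom

/-- `q ↦ q^ℓ` from `F0(N)~` to `F0(N ℓ)~`. -/
def bC : ↥(modularFunctionFieldFullC k N) →+* ↥(modularFunctionFieldFullC k (N * ℓ)) where
  toFun x := ⟨qExpand k ℓ (x : LaurentSeries k),
    full_degeneracyC_map_le k N ℓ ⟨x, x.2, rfl⟩⟩
  map_one' := Subtype.ext (map_one (qExpand k ℓ))
  map_mul' _ _ := Subtype.ext (map_mul (qExpand k ℓ) _ _)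
  map_zero' := Subtype.ext (map_zero (qExpand k ℓ))
  map_add' _ _ := Subtype.ext (map_add (qExpand k ℓ) _ _)

variable {k N ℓ}

theorem coe_incC (x : ↥(modularFunctionFieldFullC k N)) :
    ((incC k N ℓ x : ↥(modularFunctionFieldFullC k (N * ℓ))) : LaurentSeries k) = x :=
  IntermediateField.coe_inclusion (full_degeneracyC_le k (Dvd.intro ℓ rfl)) x

theorem coe_bC (x : ↥(modularFunctionFieldFullC k N)) :
    ((bC k N ℓ x : ↥(modularFunctionFieldFullC k (N * ℓ))) : LaurentSeries k) =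
      qExpand k ℓ (x : LaurentSeries k) := rfl

variable {L : Type*} [Field L] [Algebra ℚ L] {A : ValuationSubring L} {π : A →+* k}

theorem alpha_mem_Ow (hk : ((N * ℓ : ℕ) : k) ≠ 0) (hNk : (N : k) ≠ 0) (f : Ow A π N hNk) :
    heckeAlphaBar L N ℓ (f : ↥(laurentBaseChange L (modularFunctionFieldFull N))) ∈
      Ow A π (N * ℓ) hk := by
  have hf : ((f : ↥(laurentBaseChange L (modularFunctionFieldFull N))) : LaurentSeries L) ∈
      gaussRing A π := f.2
  show ((heckeAlphaBar L N ℓ (f : ↥(laurentBaseChange L (modularFunctionFieldFull N))) :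
    ↥(laurentBaseChange L (modularFunctionFieldFull (N * ℓ)))) : LaurentSeries L) ∈
    gaussRing A π
  rw [coe_heckeAlphaBar]
  exact hf

theorem beta_mem_Ow (hk : ((N * ℓ : ℕ) : k) ≠ 0) (hNk : (N : k) ≠ 0) (f : Ow A π N hNk) :
    heckeBetaBar L N ℓ (f : ↥(laurentBaseChange L (modularFunctionFieldFull N))) ∈
      Ow A π (N * ℓ) hk := by
  have hf : ((f : ↥(laurentBaseChange L (modularFunctionFieldFull N))) : LaurentSeries L) ∈
      gaussRing A π := f.2
  show ((heckeBetaBar L N ℓ (f : ↥(laurentBaseChange L (modularFunctionFieldFull N))) :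
    ↥(laurentBaseChange L (modularFunctionFieldFull (N * ℓ)))) : LaurentSeries L) ∈
    gaussRing A π
  rw [coe_heckeBetaBar]
  exact qExpand_mem_gaussRing A π ℓ hf

theorem redF_alpha (hπ : ∀ a : A, ¬ IsUnit a → π a = 0) (hk : ((N * ℓ : ℕ) : k) ≠ 0)
    (hNk : (N : k) ≠ 0) (f : Ow A π N hNk)
    (h1 : heckeAlphaBar L N ℓ (f : ↥(laurentBaseChange L (modularFunctionFieldFull N))) ∈
      Ow A π (N * ℓ) hk) :
    redF A π (N * ℓ) hπ hk ⟨_, h1⟩ = incC k N ℓ (redF A π N hπ hNk f) := by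
  apply Subtype.ext
  rw [coe_incC, coe_redF, coe_redF]
  have e : OwToGauss A π (N * ℓ) hk ⟨_, h1⟩ = OwToGauss A π N hNk f := by
    apply Subtype.ext
    rw [coe_OwToGauss, coe_OwToGauss]
    exact coe_heckeAlphaBar (L := L) N ℓ (f : ↥(laurentBaseChange L (modularFunctionFieldFull N)))
  rw [e]

theorem redF_beta (hπ : ∀ a : A, ¬ IsUnit a → π a = 0) (hk : ((N * ℓ : ℕ) : k) ≠ 0)
    (hNk : (N : k) ≠ 0) (f : Ow A π N hNk)
    (h2 : heckeBetaBar L N ℓ (f : ↥(laurentBaseChange L (modularFunctionFieldFull N))) ∈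
      Ow A π (N * ℓ) hk) :
    redF A π (N * ℓ) hπ hk ⟨_, h2⟩ = bC k N ℓ (redF A π N hπ hNk f) := by
  have hf : ((f : ↥(laurentBaseChange L (modularFunctionFieldFull N))) : LaurentSeries L) ∈
      gaussRing A π := f.2
  have hq : qExpand L ℓ ((f : ↥(laurentBaseChange L (modularFunctionFieldFull N))) :
      LaurentSeries L) ∈ gaussRing A π := qExpand_mem_gaussRing A π ℓ hf
  apply Subtype.ext
  rw [coe_bC, coe_redF, coe_redF]
  have e : OwToGauss A π (N * ℓ) hk ⟨_, h2⟩ = ⟨_, hq⟩ := by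
    apply Subtype.ext
    rw [coe_OwToGauss]
    exact coe_heckeBetaBar (L := L) N ℓ (f : ↥(laurentBaseChange L (modularFunctionFieldFull N)))
  rw [e]
  exact red_qExpand A π ℓ hf hq

/-- `w̄` exchanges the two degeneracy maps. -/
theorem wbar_swap (hπ : ∀ a : A, ¬ IsUnit a → π a = 0) (hsurj : Function.Surjective π)
    (hk : ((N * ℓ : ℕ) : k) ≠ 0)
    (W : ↥(laurentBaseChange L (modularFunctionFieldFull (N * ℓ))) →+*
      ↥(laurentBaseChange L (modularFunctionFieldFull (N * ℓ))))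
    (hα : ∀ x, W (heckeAlphaBar L N ℓ x) = heckeBetaBar L N ℓ x)
    (hβ : ∀ x, W (heckeBetaBar L N ℓ x) = heckeAlphaBar L N ℓ x)
    (w : ↥(modularFunctionFieldFullC k (N * ℓ)) →+* ↥(modularFunctionFieldFullC k (N * ℓ)))
    (hw : ∀ (y : ↥(laurentBaseChange L (modularFunctionFieldFull (N * ℓ))))
        (hy : y ∈ Ow A π (N * ℓ) hk) (hy' : W y ∈ Ow A π (N * ℓ) hk),
        w (redF A π (N * ℓ) hπ hk ⟨y, hy⟩) = redF A π (N * ℓ) hπ hk ⟨W y, hy'⟩) :
    w.comp (incC k N ℓ) = bC k N ℓ ∧ w.comp (bC k N ℓ) = incC k N ℓ := by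
  have hNk : (N : k) ≠ 0 := cast_ne_zero_of_mul hk
  have hWα : ∀ (f : Ow A π N hNk)
      (h : W (heckeAlphaBar L N ℓ (f : ↥(laurentBaseChange L (modularFunctionFieldFull N)))) ∈
        Ow A π (N * ℓ) hk),
      redF A π (N * ℓ) hπ hk ⟨_, h⟩ = bC k N ℓ (redF A π N hπ hNk f) := by
    intro f h
    have e : (⟨_, h⟩ : Ow A π (N * ℓ) hk) = ⟨_, beta_mem_Ow hk hNk f⟩ := Subtype.ext (hα _)
    rw [e]
    exact redF_beta hπ hk hNk f _
  have hWβ : ∀ (f : Ow A π N hNk)
      (h : W (heckeBetaBar L N ℓ (f : ↥(laurentBaseChange L (modularFunctionFieldFull N)))) ∈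
        Ow A π (N * ℓ) hk),
      redF A π (N * ℓ) hπ hk ⟨_, h⟩ = incC k N ℓ (redF A π N hπ hNk f) := by
    intro f h
    have e : (⟨_, h⟩ : Ow A π (N * ℓ) hk) = ⟨_, alpha_mem_Ow hk hNk f⟩ := Subtype.ext (hβ _)
    rw [e]
    exact redF_alpha hπ hk hNk f _
  constructor
  · refine RingHom.ext fun x => ?_
    obtain ⟨f, rfl⟩ := redF_surjective hπ hsurj hNk x
    show w (incC k N ℓ (redF A π N hπ hNk f)) = bC k N ℓ (redF A π N hπ hNk f)
    rw [← redF_alpha hπ hk hNk f (alpha_mem_Ow hk hNk f),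
      hw _ (alpha_mem_Ow hk hNk f) (by rw [hα]; exact beta_mem_Ow hk hNk f)]
    exact hWα f _
  · refine RingHom.ext fun x => ?_
    obtain ⟨f, rfl⟩ := redF_surjective hπ hsurj hNk x
    show w (bC k N ℓ (redF A π N hπ hNk f)) = incC k N ℓ (redF A π N hπ hNk f)
    rw [← redF_beta hπ hk hNk f (beta_mem_Ow hk hNk f),
      hw _ (beta_mem_Ow hk hNk f) (by rw [hβ]; exact alpha_mem_Ow hk hNk f)]
    exact hWβ f _

end Deg

end

end Fermat.Agent.G1.V.WBar
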