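/-
G1-V / G1-INERT (helper4): irreducibility of `X(Γ1(M) ∩ Γ0(N))` modulo `p`.

`inert` : for `3 ≤ M ∣ N`, `p ∤ N`, the powers `1, x̄, …, x̄^(n-1)` (`x = x_1`,
`n = #(ℤ/M)ˣ/±1`) are linearly independent over the mod-`p` function field of `X_0(N)`
(`Inert k M N`), given the characteristic-`0` inputs (H2), (H3), (H4).

Proof: every class of `(ℤ/M)ˣ/±1` contains a prime `ℓ ∤ N p` (Dirichlet); for such `ℓ` the
Atkin–Lehner involution `w̄` of `F0(N ℓ)~` (`WBar.exists_wbar`) and the twist lemma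
`Mono.conj_of_twist_powerSum` show that `x̄_(ℓ^{±1})` is a conjugate of `x̄_1` over `F0(N)~`;
hence all the `n` distinct series `x̄_g` are conjugates of `x̄_1`.
-/
import Mathlib
import Fermat.Agent.G1.V.MonoPS
import Fermat.Agent.G1.V.Sums
import Fermat.Agent.G1.V.WBar
import Fermat.Agent.ESJ.Cong.AtkinLehner

set_option autoImplicit false
set_option linter.unusedSectionVars false

namespace Fermat.Agent.G1.V

open HahnSeries ModularCurve Fermat.Agent.Lib.Red

/-- A polynomial over `Ω` with coefficients in an intermediate field comes from it. -/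
theorem exists_poly_of_coeff_mem {K Ω : Type*} [Field K] [Field Ω] [Algebra K Ω]
    (F : IntermediateField K Ω) (R : Polynomial Ω) (hR : ∀ i, R.coeff i ∈ F) :
    ∃ R₀ : Polynomial F, R₀.map (algebraMap F Ω) = R := by
  refine ⟨∑ i ∈ R.support, Polynomial.monomial i (⟨R.coeff i, hR i⟩ : F), ?_⟩
  rw [Polynomial.map_sum]
  conv_rhs => rw [R.as_sum_support]
  refine Finset.sum_congr rfl fun i _ => ?_
  rw [Polynomial.map_monomial]
  rfl

section

variable {L : Type} [Field L] [Algebra ℚ L] (A : ValuationSubring L) {k : Type} [Field k]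
  (π : A →+* k) (M N : ℕ) [NeZero M] [NeZero N] [Fintype (DG M)]

/-! ### The symmetric sums modulo `p` -/

theorem psumC_mem (hπ : ∀ a : A, ¬ IsUnit a → π a = 0) (hNk : (N : k) ≠ 0) (hMN : M ∣ N)
    (h2 : H2 M) (m : ℕ) : psum M k m ∈ modularFunctionFieldFullC k N := by
  have h := WBar.mem_fullC_of_int (A := A) (π := π) hπ hNk (psum M ℤ m)
    (by rw [coeffMap_psum]; exact full_degeneracy_le hMN (psum_mem M h2 m))
  rwa [coeffMap_psum] at h

theorem dsumC_mem (hπ : ∀ a : A, ¬ IsUnit a → π a = 0) (hNk : (N : k) ≠ 0) (hMN : M ∣ N)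
    (h2 : H2 M) (e : DG M) (j : ℕ) : dsum M k e j ∈ modularFunctionFieldFullC k N := by
  have h := WBar.mem_fullC_of_int (A := A) (π := π) hπ hNk (dsum M ℤ e j)
    (by rw [coeffMap_dsum]; exact full_degeneracy_le hMN (dsum_mem M h2 e j))
  rwa [coeffMap_dsum] at h

theorem cpolyC_coeff_mem (hπ : ∀ a : A, ¬ IsUnit a → π a = 0) (hNk : (N : k) ≠ 0) (hMN : M ∣ N)
    (h2 : H2 M) (i : ℕ) : (cpoly M k).coeff i ∈ modularFunctionFieldFullC k N := by
  have h := WBar.mem_fullC_of_int (A := A) (π := π) hπ hNk ((cpoly M ℤ).coeff i)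
    (by
      rw [← Polynomial.coeff_map, map_cpoly]
      exact full_degeneracy_le hMN (cpoly_coeff_mem M h2 i))
  rwa [← Polynomial.coeff_map, map_cpoly] at h

theorem cpoly_monic (R : Type*) [CommRing R] : (cpoly M R).Monic :=
  Polynomial.monic_prod_of_monic _ _ fun _ _ => Polynomial.monic_X_sub_C _

/-! ### One prime -/

/-- For a prime `ℓ ∤ N p` with (H3), (H4): `x̄_e` is a conjugate of `x̄_1` over `F0(N)~`. -/
theorem isConj_of_prime (hπ : ∀ a : A, ¬ IsUnit a → π a = 0) (hsurj : Function.Surjective π)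
    (hM : 3 ≤ M) (hMN : M ∣ N) (h2 : H2 M) (ℓ : ℕ) [NeZero ℓ] (hℓ : ℓ.Prime) (hℓN : ¬ ℓ ∣ N)
    (hk : ((N * ℓ : ℕ) : k) ≠ 0) (ζ : Lˣ) (hζ : IsPrimitiveRoot ζ ℓ) (h3 : H3 M ℓ)
    (e : (ZMod M)ˣ) (h4 : H4 M N ℓ e L) :
    Mono.IsConj (algebraMap ↥(modularFunctionFieldFullC k N) (LaurentSeries k)) (tG M k)
      (QuotientGroup.mk e : DG M) := by
  have hNk : (N : k) ≠ 0 := WBar.cast_ne_zero_of_mul hk
  obtain ⟨W, hα, hβ, hinv⟩ : ∃ W : ↥(laurentBaseChange L (modularFunctionFieldFull (N * ℓ))) →+*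
      ↥(laurentBaseChange L (modularFunctionFieldFull (N * ℓ))),
      (∀ x, W (heckeAlphaBar L N ℓ x) = heckeBetaBar L N ℓ x) ∧
      (∀ x, W (heckeBetaBar L N ℓ x) = heckeAlphaBar L N ℓ x) ∧ ∀ z, W (W z) = z := by
    obtain ⟨W, hα, hβ, hinv⟩ :=
      Fermat.Agent.ESJ.Cong.AtkinLehner.exists_atkinLehner L N ℓ hℓ hℓN ζ hζ
    exact ⟨(W : ↥(laurentBaseChange L (modularFunctionFieldFull (N * ℓ))) →+*
      ↥(laurentBaseChange L (modularFunctionFieldFull (N * ℓ)))), hα, hβ, hinv⟩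
  obtain ⟨w, hw⟩ := WBar.exists_wbar (A := A) (π := π) hπ hsurj hℓ hk W hα hβ hinv
  obtain ⟨hwinc, hwb⟩ := WBar.wbar_swap hπ hsurj hk W hα hβ w hw
  obtain ⟨P, hP⟩ := exists_poly_of_coeff_mem (modularFunctionFieldFullC k N) (cpoly M k)
    (cpolyC_coeff_mem A π M N hπ hNk hMN h2)
  have hPm : P.Monic := Polynomial.monic_of_injective
    (algebraMap ↥(modularFunctionFieldFullC k N) (LaurentSeries k)).injective
    (by rw [hP]; exact cpoly_monic M k)
  have hinc : (algebraMap ↥(modularFunctionFieldFullC k (N * ℓ)) (LaurentSeries k)).comp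
      (WBar.incC k N ℓ) = algebraMap ↥(modularFunctionFieldFullC k N) (LaurentSeries k) :=
    RingHom.ext fun x => by
      rw [RingHom.comp_apply, IntermediateField.algebraMap_apply,
        IntermediateField.algebraMap_apply]
      exact WBar.coe_incC x
  have hb : (algebraMap ↥(modularFunctionFieldFullC k (N * ℓ)) (LaurentSeries k)).comp
      (WBar.bC k N ℓ) = (qExpand k ℓ).comp
        (algebraMap ↥(modularFunctionFieldFullC k N) (LaurentSeries k)) :=
    RingHom.ext fun x => by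
      rw [RingHom.comp_apply, RingHom.comp_apply, IntermediateField.algebraMap_apply,
        IntermediateField.algebraMap_apply]
      exact WBar.coe_bC x
  have hps : ∀ m : ℕ, ∃ a : ↥(modularFunctionFieldFullC k N),
      algebraMap ↥(modularFunctionFieldFullC k N) (LaurentSeries k) a =
        ∑ d, tG M k d ^ m := fun m =>
    ⟨⟨psum M k m, psumC_mem A π M N hπ hNk hMN h2 m⟩, by
      rw [IntermediateField.algebraMap_apply]; rfl⟩
  have hds : ∀ (e : DG M) (j : ℕ), ∃ a : ↥(modularFunctionFieldFullC k N),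
      algebraMap ↥(modularFunctionFieldFullC k N) (LaurentSeries k) a =
        ∑ d, tG M k (e * d) * tG M k d ^ j := fun e j =>
    ⟨⟨dsum M k e j, dsumC_mem A π M N hπ hNk hMN h2 e j⟩, by
      rw [IntermediateField.algebraMap_apply]; rfl⟩
  have key := Mono.conj_of_twist_powerSum
    (algebraMap ↥(modularFunctionFieldFullC k N) (LaurentSeries k))
    (algebraMap ↥(modularFunctionFieldFullC k (N * ℓ)) (LaurentSeries k))
    (WBar.incC k N ℓ) (WBar.bC k N ℓ) w (qExpand k ℓ) (tG M k)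
    hinc hb hwinc hwb (tG_injective M hM k) P hPm hP
  have k1 := key hps
  have k2 := k1 hds
  have k3 := k2 (QuotientGroup.mk e)
  refine k3 ?_
  intro j
  -- the integral element `y_j`
  have hyL : coeffMap (Int.castRingHom L) (msum M ℤ ℓ j) ∈
      laurentBaseChange L (modularFunctionFieldFull (N * ℓ)) := by
    rw [← WBar.coeffEmb_coeffMap_int, coeffMap_msum]
    exact coeffEmb_mem_laurentBaseChange L
      (full_degeneracy_le (Nat.mul_dvd_mul_right hMN ℓ) (msum_mem M h3 j))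
  set y : ↥(laurentBaseChange L (modularFunctionFieldFull (N * ℓ))) :=
    ⟨coeffMap (Int.castRingHom L) (msum M ℤ ℓ j), hyL⟩ with hy
  have hy1 : (y : LaurentSeries L) = incl A (coeffMap (Int.castRingHom A) (msum M ℤ ℓ j)) :=
    (WBar.incl_coeffMap_int A _).symm
  have hy2 : (y : LaurentSeries L) = coeffEmb L (msum M ℚ ℓ j) := by
    rw [← coeffMap_msum M (Int.castRingHom ℚ), WBar.coeffEmb_coeffMap_int]
  have hWy := W_msum M h4 W hα hβ j y hy2
  have hWy1 : ((W y : ↥(laurentBaseChange L (modularFunctionFieldFull (N * ℓ)))) :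
      LaurentSeries L) =
      incl A (coeffMap (Int.castRingHom A) (wsum M ℤ ℓ (QuotientGroup.mk e) j)) := by
    rw [WBar.incl_coeffMap_int, ← WBar.coeffEmb_coeffMap_int, coeffMap_wsum]
    exact hWy
  have hmem : y ∈ Ow A π (N * ℓ) hk := WBar.mem_Ow_of_eq_incl hk y _ hy1
  have hmemW : W y ∈ Ow A π (N * ℓ) hk := WBar.mem_Ow_of_eq_incl hk _ _ hWy1
  refine ⟨redF A π (N * ℓ) hπ hk ⟨y, hmem⟩, ?_, ?_⟩
  · have h1 := WBar.coe_redF_of_eq_incl hπ hk y _ hy1 hmem
    rw [WBar.rbar_coeffMap_int, coeffMap_msum] at h1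
    rw [IntermediateField.algebraMap_apply, h1]
    rfl
  · have h1 := WBar.coe_redF_of_eq_incl hπ hk _ _ hWy1 hmemW
    rw [WBar.rbar_coeffMap_int, coeffMap_wsum] at h1
    rw [hw y hmem hmemW, IntermediateField.algebraMap_apply, h1]
    rfl

end

/-! ### All classes -/

/-- **INERT.**  For `3 ≤ M ∣ N` and a field `k` with `N ≠ 0` (the residue field of a valuation
ring `A` of a field `L ⊇ ℚ` containing the roots of unity of prime order), the powers
`1, x̄, …, x̄^(n-1)` are linearly independent over the mod-`p` function field of `X_0(N)`. -/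
theorem inert {L : Type} [Field L] [Algebra ℚ L] (A : ValuationSubring L) {k : Type} [Field k]
    (π : A →+* k) (hπ : ∀ a : A, ¬ IsUnit a → π a = 0) (hsurj : Function.Surjective π)
    (hζ : ∀ ℓ : ℕ, ℓ.Prime → ∃ ζ : Lˣ, IsPrimitiveRoot ζ ℓ)
    (M N : ℕ) [NeZero M] [NeZero N] (hM : 3 ≤ M) (hMN : M ∣ N) (hNk : (N : k) ≠ 0)
    (h2 : H2 M)
    (h3 : ∀ (ℓ : ℕ) [NeZero ℓ], ℓ.Prime → ¬ ℓ ∣ N → H3 M ℓ)
    (h4 : ∀ (ℓ : ℕ) [NeZero ℓ], ℓ.Prime → ¬ ℓ ∣ N → ∃ e : (ZMod M)ˣ,
      ((e : ZMod M) = (ℓ : ZMod M) ∨ ((e⁻¹ : (ZMod M)ˣ) : ZMod M) = (ℓ : ZMod M)) ∧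
        H4 M N ℓ e L) :
    Inert k M N := by
  classical
  let _ : Fintype (DG M) := Fintype.ofFinite _
  set i₀ := algebraMap ↥(modularFunctionFieldFullC k N) (LaurentSeries k) with hi₀
  have ht : Function.Injective (tG M k) := tG_injective M hM k
  -- diamond polynomials
  have hdia : ∀ e : DG M, ∃ R : Polynomial ↥(modularFunctionFieldFullC k N),
      ∀ d, R.eval₂ i₀ (tG M k d) = tG M k (e * d) := by
    intro e
    have hps : ∀ m : ℕ, i₀ (⟨psum M k m, psumC_mem A π M N hπ hNk hMN h2 m⟩ :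
        ↥(modularFunctionFieldFullC k N)) = ∑ d, tG M k d ^ m := fun m => by
      rw [hi₀, IntermediateField.algebraMap_apply]; rfl
    have hds : ∀ j : ℕ, i₀ (⟨dsum M k e j, dsumC_mem A π M N hπ hNk hMN h2 e j⟩ :
        ↥(modularFunctionFieldFullC k N)) = ∑ d, tG M k (e * d) * tG M k d ^ j := fun j => by
      rw [hi₀, IntermediateField.algebraMap_apply]; rfl
    obtain ⟨cf, hcf⟩ := Lagrange.exists_system_solution i₀ (tG M k) ht
      (fun m => (⟨psum M k m, psumC_mem A π M N hπ hNk hMN h2 m⟩ :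
        ↥(modularFunctionFieldFullC k N))) hps
      (fun j => (⟨dsum M k e j, dsumC_mem A π M N hπ hNk hMN h2 e j⟩ :
        ↥(modularFunctionFieldFullC k N)))
    exact ⟨_, Lagrange.eval₂_eq_of_system i₀ (tG M k) (fun d => tG M k (e * d)) ht _ _
      hps hds cf hcf⟩
  -- every class is a conjugate
  have hall : ∀ g : DG M, Mono.IsConj i₀ (tG M k) g := by
    intro g
    induction g using QuotientGroup.induction_on with
    | H u =>
      obtain ⟨ℓ, hgt, hℓ, hℓu⟩ := Nat.forall_exists_prime_gt_and_eq_mod (q := M) u.isUnit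
        (max N (ringChar k))
      have hℓN : ¬ ℓ ∣ N := fun hd =>
        absurd (Nat.le_of_dvd (Nat.pos_of_ne_zero (NeZero.ne N)) hd)
          (not_le.mpr (lt_of_le_of_lt (le_max_left _ _) hgt))
      have hℓk : (ℓ : k) ≠ 0 := by
        intro h0
        rw [ringChar.spec] at h0
        rcases (Nat.dvd_prime hℓ).mp h0 with h1 | h1
        · have h2' : ((1 : ℕ) : k) = 0 := by
            rw [ringChar.spec, h1]
          rw [Nat.cast_one] at h2'
          exact one_ne_zero h2'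
        · have := lt_of_le_of_lt (le_max_right N (ringChar k)) hgt
          omega
      have hk : ((N * ℓ : ℕ) : k) ≠ 0 := by
        rw [Nat.cast_mul]
        exact mul_ne_zero hNk hℓk
      have : NeZero ℓ := ⟨hℓ.ne_zero⟩
      obtain ⟨ζ, hζ'⟩ := hζ ℓ hℓ
      obtain ⟨e, he, h4'⟩ := h4 ℓ hℓ hℓN
      have hconj := isConj_of_prime A π M N hπ hsurj hM hMN h2 ℓ hℓ hℓN hk ζ hζ'
        (h3 ℓ hℓ hℓN) e h4'
      rcases he with he | he
      · have : e = u := Units.ext (he.trans hℓu)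
        rw [← this]
        exact hconj
      · have : e⁻¹ = u := Units.ext (he.trans hℓu)
        rw [← this]
        exact hconj.inv hdia
  -- conclusion
  have hn : degX M = Fintype.card (DG M) := Nat.card_eq_fintype_card
  have key := Mono.sum_pow_eq_zero i₀ (tG M k) ht (fun e f hf => hall e f hf)
  have ht1 : tG M k 1 = xgenR k M 1 := by
    have := tG_mk M k (1 : (ZMod M)ˣ)
    rw [Units.val_one] at this
    exact this
  rw [ht1] at key
  unfold Inert
  rw [hn]
  intro c hc hsum j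
  have := key (fun j => ⟨c j, hc j⟩) hsum j
  exact congrArg Subtype.val this

end Fermat.Agent.G1.V
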