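/-
G1-V / G1-INERT (helper4): the algebraic relations of the conjugates `x_g` over `F0`
(generic lemmas from the symmetric sums).

* `pow_card_eq_sum`     : `t_g^n ∈ ∑_{j<n} F t_g^j` if `∏ (X - t_d)` has coefficients in `F`;
* `mem_adjoin_of_sums`  : `t_e ∈ F(t_1)` if the power sums and the diamond sums lie in `F`
  (Lagrange interpolation, valid in every characteristic);
* `exists_separable`    : a separable polynomial over `F` killing `t_1`.
-/
import Mathlib
import Fermat.Agent.G1.V.Lagrange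

set_option autoImplicit false
set_option linter.unusedSectionVars false

namespace Fermat.Agent.G1.V.Rel

open Polynomial

variable {K Ω : Type*} [Field K] [Field Ω] [Algebra K Ω] (F : IntermediateField K Ω)
  {G : Type*} [Fintype G] [Group G] (t : G → Ω)

/-- A polynomial over `Ω` with coefficients in an intermediate field comes from it. -/
theorem exists_poly_of_coeff_mem (R : Polynomial Ω) (hR : ∀ i, R.coeff i ∈ F) :
    ∃ R₀ : Polynomial F, R₀.map (algebraMap F Ω) = R := by
  refine ⟨∑ i ∈ R.support, Polynomial.monomial i (⟨R.coeff i, hR i⟩ : F), ?_⟩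
  rw [Polynomial.map_sum]
  conv_rhs => rw [R.as_sum_support]
  refine Finset.sum_congr rfl fun i _ => ?_
  rw [Polynomial.map_monomial]
  rfl

theorem prod_monic : (∏ d : G, (X - C (t d))).Monic :=
  Polynomial.monic_prod_of_monic _ _ fun _ _ => Polynomial.monic_X_sub_C _

theorem prod_natDegree : (∏ d : G, (X - C (t d))).natDegree = Fintype.card G := by
  rw [Polynomial.natDegree_prod_of_monic _ _ fun _ _ => Polynomial.monic_X_sub_C _]
  simp

theorem prod_eval (g : G) : (∏ d : G, (X - C (t d))).eval (t g) = 0 := by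
  rw [Polynomial.eval_prod]
  exact Finset.prod_eq_zero (Finset.mem_univ g) (by simp)

/-- **Degree relation.** -/
theorem pow_card_eq_sum (hc : ∀ i, (∏ d : G, (X - C (t d))).coeff i ∈ F) (g : G) :
    ∃ a : Fin (Fintype.card G) → Ω, (∀ j, a j ∈ F) ∧
      t g ^ Fintype.card G = ∑ j, a j * t g ^ (j : ℕ) := by
  set P : Polynomial Ω := ∏ d : G, (X - C (t d)) with hP
  refine ⟨fun j => -P.coeff (j : ℕ), fun j => F.neg_mem (hc _), ?_⟩
  have h1 := (prod_monic t).as_sum
  rw [prod_natDegree, ← hP] at h1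
  have h2 := congrArg (Polynomial.eval (t g)) h1
  rw [hP, prod_eval, ← hP, Polynomial.eval_add, Polynomial.eval_pow, Polynomial.eval_X,
    Polynomial.eval_finsetSum] at h2
  have h3 : ∑ j : Fin (Fintype.card G), -P.coeff (j : ℕ) * t g ^ (j : ℕ) =
      -∑ i ∈ Finset.range (Fintype.card G), Polynomial.eval (t g) (C (P.coeff i) * X ^ i) := by
    rw [← Finset.sum_neg_distrib, ← Fin.sum_univ_eq_sum_range
      (fun i => -Polynomial.eval (t g) (C (P.coeff i) * X ^ i))]
    refine Finset.sum_congr rfl fun j _ => ?_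
    rw [Polynomial.eval_mul, Polynomial.eval_C, Polynomial.eval_pow, Polynomial.eval_X, neg_mul]
  rw [h3]
  exact eq_neg_of_add_eq_zero_left h2.symm

/-- **Diamond relation** (Lagrange interpolation): `t_e ∈ F(t_1)`. -/
theorem mem_adjoin_of_sums (ht : Function.Injective t) (hps : ∀ m : ℕ, ∑ d, t d ^ m ∈ F)
    (hds : ∀ (e : G) (j : ℕ), ∑ d, t (e * d) * t d ^ j ∈ F) (e : G) :
    t e ∈ IntermediateField.adjoin K ((F : Set Ω) ∪ {t 1}) := by
  have ha : ∀ m : ℕ, algebraMap F Ω (⟨∑ d, t d ^ m, hps m⟩ : F) = ∑ d, t d ^ m := fun m => rfl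
  have hb : ∀ j : ℕ, algebraMap F Ω (⟨∑ d, t (e * d) * t d ^ j, hds e j⟩ : F) =
      ∑ d, t (e * d) * t d ^ j := fun j => rfl
  obtain ⟨cf, hcf⟩ := Lagrange.exists_system_solution (algebraMap F Ω) t ht
    (fun m => (⟨∑ d, t d ^ m, hps m⟩ : F)) ha (fun j => (⟨∑ d, t (e * d) * t d ^ j, hds e j⟩ : F))
  have h := Lagrange.eval₂_eq_of_system (algebraMap F Ω) t (fun d => t (e * d)) ht _ _ ha hb cf hcf 1
  rw [mul_one] at h
  rw [← h, Polynomial.eval₂_finsetSum]
  refine sum_mem fun m _ => ?_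
  rw [Polynomial.eval₂_mul, Polynomial.eval₂_C, Polynomial.eval₂_pow, Polynomial.eval₂_X]
  have h1 : algebraMap F Ω (cf m) ∈ IntermediateField.adjoin K ((F : Set Ω) ∪ {t 1}) :=
    IntermediateField.subset_adjoin K _ (Set.mem_union_left _ (cf m).2)
  have h2 : t 1 ∈ IntermediateField.adjoin K ((F : Set Ω) ∪ {t 1}) :=
    IntermediateField.subset_adjoin K _ (Set.mem_union_right _ (Set.mem_singleton _))
  exact mul_mem h1 (pow_mem h2 _)

/-- **Separability.** -/
theorem exists_separable (ht : Function.Injective t)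
    (hc : ∀ i, (∏ d : G, (X - C (t d))).coeff i ∈ F) (g : G) :
    ∃ Q : Polynomial F, Q.Monic ∧ Q.Separable ∧ Q.natDegree = Fintype.card G ∧
      Q.map (algebraMap F Ω) = ∏ d : G, (X - C (t d)) ∧ Polynomial.aeval (t g) Q = 0 := by
  obtain ⟨Q, hQ⟩ := exists_poly_of_coeff_mem F _ hc
  refine ⟨Q, ?_, ?_, ?_, hQ, ?_⟩
  · exact Polynomial.monic_of_injective (algebraMap F Ω).injective (by rw [hQ]; exact prod_monic t)
  · rw [← Polynomial.separable_map (algebraMap F Ω), hQ]
    exact (Polynomial.separable_prod_X_sub_C_iff).mpr ht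
  · rw [← Polynomial.natDegree_map (algebraMap F Ω), hQ, prod_natDegree]
  · rw [Polynomial.aeval_def, Polynomial.eval₂_eq_eval_map, hQ, prod_eval]

end Fermat.Agent.G1.V.Rel
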