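/-
G1-V / G1-INERT (helper4): the unconditional statements.

For `3 ≤ M`:
* `degRel M : DegRel M`, `diaRel M hM : DiaRel M` (characteristic `0`);
* `inert_main : Inert k M N` for `M ∣ N`, `(N : k) ≠ 0` (irreducibility of
  `X(Γ1(M) ∩ Γ0(N))` modulo `p`);
* `diaRelC : DiaRelC k M`, `exists_sepPoly` (a separable polynomial over `F0(N)~` killing `x̄_1`),
  `exists_charPoly` (its precise form `∏ (X - x̄_g)`).

`k` is the residue field of a valuation ring `A` of a field `L ⊇ ℚ` containing the roots of unity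
of prime order (`inert_main`), e.g. `L = ℚ̄`.
-/
import Mathlib
import Fermat.Agent.G1.V.Inert
import Fermat.Agent.G1.V.Rel
import Fermat.Agent.G1.GenHyp
import Fermat.Agent.G1.AtkinH4

set_option autoImplicit false
set_option linter.unusedSectionVars false

namespace Fermat.Agent.G1.V

open HahnSeries ModularCurve Fermat.Agent.Lib.Red

theorem tG_one (M : ℕ) [NeZero M] (R : Type*) [CommRing R] : tG M R 1 = xgenR R M 1 := by
  have := tG_mk M R (1 : (ZMod M)ˣ)
  rw [Units.val_one] at this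
  exact this

/-! ### Characteristic `0` -/

/-- **DEG** holds. -/
theorem degRel (M : ℕ) [NeZero M] : DegRel M := by
  classical
  let _ : Fintype (DG M) := Fintype.ofFinite _
  have hn : degX M = Fintype.card (DG M) := Nat.card_eq_fintype_card
  have h := Rel.pow_card_eq_sum (modularFunctionFieldFull M) (tG M ℚ)
    (fun i => cpoly_coeff_mem M (h2 M) i) 1
  rw [tG_one] at h
  unfold DegRel
  rw [hn]
  exact h

/-- **DIA** holds (`M ≥ 3`). -/
theorem diaRel (M : ℕ) [NeZero M] (hM : 3 ≤ M) : DiaRel M := by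
  classical
  let _ : Fintype (DG M) := Fintype.ofFinite _
  intro u
  have h := Rel.mem_adjoin_of_sums (modularFunctionFieldFull M) (tG M ℚ) (tG_injective M hM ℚ)
    (psum_mem M (h2 M)) (dsum_mem M (h2 M)) (QuotientGroup.mk u)
  rw [tG_one] at h
  exact h

/-! ### Characteristic `p` -/

section

variable {L : Type} [Field L] [Algebra ℚ L] (A : ValuationSubring L) {k : Type} [Field k]
  (π : A →+* k)

/-- **INERT** holds: for `3 ≤ M ∣ N` and `(N : k) ≠ 0`, the powers `1, x̄, …, x̄^(n-1)` are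
linearly independent over the mod-`p` function field of `X_0(N)`. -/
theorem inert_main (hπ : ∀ a : A, ¬ IsUnit a → π a = 0) (hsurj : Function.Surjective π)
    (hζ : ∀ ℓ : ℕ, ℓ.Prime → ∃ ζ : Lˣ, IsPrimitiveRoot ζ ℓ)
    (M N : ℕ) [NeZero M] [NeZero N] (hM : 3 ≤ M) (hMN : M ∣ N) (hNk : (N : k) ≠ 0) :
    Inert k M N := by
  refine inert A π hπ hsurj hζ M N hM hMN hNk (h2 M) (fun ℓ _ _ _ => h3 M ℓ) ?_
  intro ℓ _ hℓ hℓN
  have hcop : Nat.Coprime ℓ M :=
    (Nat.Prime.coprime_iff_not_dvd hℓ).mpr fun h => hℓN (h.trans hMN)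
  exact ⟨ZMod.unitOfCoprime ℓ hcop, Or.inl (ZMod.coe_unitOfCoprime ℓ hcop),
    AtkinH4.h4 M N ℓ hMN hℓ hℓN _ (ZMod.coe_unitOfCoprime ℓ hcop) L⟩

/-- **DIA mod p** holds (`M ≥ 3`, `(M : k) ≠ 0`). -/
theorem diaRelC (hπ : ∀ a : A, ¬ IsUnit a → π a = 0) (M : ℕ) [NeZero M] (hM : 3 ≤ M)
    (hMk : (M : k) ≠ 0) : DiaRelC k M := by
  classical
  let _ : Fintype (DG M) := Fintype.ofFinite _
  intro u
  have h := Rel.mem_adjoin_of_sums (modularFunctionFieldFullC k M) (tG M k) (tG_injective M hM k)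
    (psumC_mem A π M M hπ hMk dvd_rfl (h2 M)) (dsumC_mem A π M M hπ hMk dvd_rfl (h2 M))
    (QuotientGroup.mk u)
  rw [tG_one] at h
  exact h

/-- The characteristic polynomial `∏ (X - x̄_g)` of `x̄_1` over `F0(N)~`: monic, separable, of
degree `degX M`. -/
theorem exists_charPoly (hπ : ∀ a : A, ¬ IsUnit a → π a = 0) (M N : ℕ) [NeZero M] [NeZero N]
    [Fintype (DG M)] (hM : 3 ≤ M) (hMN : M ∣ N) (hNk : (N : k) ≠ 0) :
    ∃ Q : Polynomial ↥(modularFunctionFieldFullC k N), Q.Monic ∧ Q.Separable ∧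
      Q.natDegree = degX M ∧
      Q.map (algebraMap ↥(modularFunctionFieldFullC k N) (LaurentSeries k)) =
        ∏ g : DG M, (Polynomial.X - Polynomial.C (tG M k g)) ∧
      Polynomial.aeval (xgenR k M 1) Q = 0 := by
  have hn : degX M = Fintype.card (DG M) := Nat.card_eq_fintype_card
  obtain ⟨Q, h1, h2', h3', h4', h5⟩ := Rel.exists_separable (modularFunctionFieldFullC k N)
    (tG M k) (tG_injective M hM k) (cpolyC_coeff_mem A π M N hπ hNk hMN (h2 M)) 1
  rw [tG_one] at h5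
  exact ⟨Q, h1, h2', by rw [hn]; exact h3', h4', h5⟩

/-- A separable polynomial over `F0(N)~` killing `x̄_1`. -/
theorem exists_sepPoly (hπ : ∀ a : A, ¬ IsUnit a → π a = 0) (M N : ℕ) [NeZero M] [NeZero N]
    (hM : 3 ≤ M) (hMN : M ∣ N) (hNk : (N : k) ≠ 0) :
    ∃ Q : Polynomial ↥(modularFunctionFieldFullC k N), Q.Separable ∧
      Polynomial.aeval (xgenR k M 1) Q = 0 := by
  classical
  let _ : Fintype (DG M) := Fintype.ofFinite _
  obtain ⟨Q, -, h2', -, -, h5⟩ := exists_charPoly A π hπ M N hM hMN hNk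
  exact ⟨Q, h2', h5⟩

end

end Fermat.Agent.G1.V
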