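/-
G1-V (helper4 + helper80's packaging): the unconditional packaged statements.

* `inputs : Pack.Inputs k M a` (all four inputs of helper80's `Pack`), hence `Pack.goodV_F1a`,
  `Pack.goodBasis`, `Pack.ringHom_mem`, … apply without hypotheses;
* `isSeparable_main : Algebra.IsSeparable F0(M a)~ F1a(M, a)~`;
* `Qbar` forms: `inputs_Qbar`, `integralScaling_F1a_main : Cong.IntegralScaling (F1a M a) A`,
  for every valuation subring `A` of `ℚ̄` whose residue characteristic does not divide `M a`.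
-/
import Mathlib
import Fermat.Agent.G1.V.Main
import Fermat.Agent.G1.V.Pack
import Fermat.Agent.G1.V.PackCong

set_option autoImplicit false
set_option linter.unusedSectionVars false

namespace Fermat.Agent.G1.V

open HahnSeries ModularCurve Fermat.Agent.Lib.Red

section

variable {L : Type} [Field L] [Algebra ℚ L] (A : ValuationSubring L) {k : Type} [Field k]
  (π : A →+* k)

/-- **All inputs of the packaging hold.** -/
theorem inputs (hπ : ∀ a : A, ¬ IsUnit a → π a = 0) (hsurj : Function.Surjective π)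
    (hζ : ∀ ℓ : ℕ, ℓ.Prime → ∃ ζ : Lˣ, IsPrimitiveRoot ζ ℓ)
    (M a : ℕ) [NeZero M] [NeZero a] (hM : 3 ≤ M) (hk : ((M * a : ℕ) : k) ≠ 0) :
    Pack.Inputs k M a :=
  ⟨degRel M, diaRel M hM, inert_main A π hπ hsurj hζ M (M * a) hM (Dvd.intro a rfl) hk,
    diaRelC A π hπ M hM (WBar.cast_ne_zero_of_mul hk)⟩

/-- **Separability** of the residue extension `F1a(M, a)~ / F0(M a)~`. -/
theorem isSeparable_main (hπ : ∀ a : A, ¬ IsUnit a → π a = 0) (hsurj : Function.Surjective π)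
    (hζ : ∀ ℓ : ℕ, ℓ.Prime → ∃ ζ : Lˣ, IsPrimitiveRoot ζ ℓ)
    (M a : ℕ) [NeZero M] [NeZero a] (hM : 3 ≤ M) (hk : ((M * a : ℕ) : k) ≠ 0) :
    Algebra.IsSeparable ↥(modularFunctionFieldFullC k (M * a)) ↥(Pack.F1aC k M a) :=
  Pack.isSeparable (inputs A π hπ hsurj hζ M a hM hk)
    (exists_sepPoly A π hπ M (M * a) hM (Dvd.intro a rfl) hk)

end

/-! ### `L = ℚ̄` -/

theorem exists_primitiveRoot_Qbar (ℓ : ℕ) (hℓ : ℓ.Prime) :
    ∃ ζ : (AlgebraicClosure ℚ)ˣ, IsPrimitiveRoot ζ ℓ := by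
  have : NeZero ℓ := ⟨hℓ.ne_zero⟩
  have : NeZero (ℓ : AlgebraicClosure ℚ) := ⟨Nat.cast_ne_zero.mpr hℓ.ne_zero⟩
  obtain ⟨ζ, hζ⟩ := HasEnoughRootsOfUnity.exists_primitiveRoot (AlgebraicClosure ℚ) ℓ
  have hu : IsUnit ζ := hζ.isUnit hℓ.ne_zero
  obtain ⟨u, rfl⟩ := hu
  exact ⟨u, IsPrimitiveRoot.coe_units_iff.mp hζ⟩

theorem residue_eq_zero_of_not_isUnit (A : ValuationSubring (AlgebraicClosure ℚ)) (a : A)
    (ha : ¬ IsUnit a) : IsLocalRing.residue A a = 0 := by
  rw [IsLocalRing.residue_eq_zero_iff]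
  exact (IsLocalRing.mem_maximalIdeal a).mpr ha

/-- All inputs of the packaging, for a valuation subring of `ℚ̄`. -/
theorem inputs_Qbar (A : ValuationSubring (AlgebraicClosure ℚ)) (M a : ℕ) [NeZero M] [NeZero a]
    (hM : 3 ≤ M) (hk : ((M * a : ℕ) : IsLocalRing.ResidueField A) ≠ 0) :
    Pack.Inputs (IsLocalRing.ResidueField A) M a :=
  inputs A (IsLocalRing.residue A) (residue_eq_zero_of_not_isUnit A)
    IsLocalRing.residue_surjective exists_primitiveRoot_Qbar M a hM hk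

/-- **`IntegralScaling` for `F1a M a`**, unconditionally. -/
theorem integralScaling_F1a_main (A : ValuationSubring (AlgebraicClosure ℚ)) (M a : ℕ)
    [NeZero M] [NeZero a] (hM : 3 ≤ M)
    (hk : ((M * a : ℕ) : IsLocalRing.ResidueField A) ≠ 0) :
    Fermat.Agent.G1.Cong.IntegralScaling (F1a M a) A :=
  Pack.integralScaling_F1a A M a hk (inputs_Qbar A M a hM hk)

end Fermat.Agent.G1.V
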