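/-
G1-INERT, unconditional form: the characteristic-`0` inputs (H2), (H3), (H4) of
`G1/V/Inert.lean` are theorems (`G1/GenHyp.lean`, `G1/AtkinH4.lean`), so `V.Inert k M N` holds
for every residue field `k` of a valuation ring of a field `L ⊇ ℚ` containing the roots of unity
of prime order, `3 ≤ M ∣ N`, `(N : k) ≠ 0`.

* `inert`     : generic `(L, A, π, k)`;
* `inert_sepClosed` : the same with `L` separably closed (no root-of-unity hypothesis);
* `inert_mul` : the level `M * a` form consumed by the packaging layer.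
-/
import Mathlib
import Fermat.Agent.G1.V.Inert
import Fermat.Agent.G1.AtkinH4

set_option autoImplicit false

namespace Fermat.Agent.G1.V.InertB

open ModularCurve

/-- **INERT**, unconditional: `1, x̄, …, x̄^(n-1)` are linearly independent over the mod-`p`
function field of `X_0(N)`. -/
theorem inert {L : Type} [Field L] [Algebra ℚ L] (A : ValuationSubring L) {k : Type} [Field k]
    (π : A →+* k) (hπ : ∀ a : A, ¬ IsUnit a → π a = 0) (hsurj : Function.Surjective π)
    (hζ : ∀ ℓ : ℕ, ℓ.Prime → ∃ ζ : Lˣ, IsPrimitiveRoot ζ ℓ)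
    (M N : ℕ) [NeZero M] [NeZero N] (hM : 3 ≤ M) (hMN : M ∣ N) (hNk : (N : k) ≠ 0) :
    V.Inert k M N :=
  V.inert A π hπ hsurj hζ M N hM hMN hNk (h2 M) (fun ℓ _ _ _ => h3 M ℓ)
    (fun ℓ _ hℓ hℓN => by
      have hcop : Nat.Coprime ℓ M :=
        (Nat.Prime.coprime_iff_not_dvd hℓ).mpr fun h => hℓN (h.trans hMN)
      exact ⟨ZMod.unitOfCoprime ℓ hcop, Or.inl (ZMod.coe_unitOfCoprime ℓ hcop),
        AtkinH4.h4 M N ℓ hMN hℓ hℓN _ (ZMod.coe_unitOfCoprime ℓ hcop) L⟩)

/-- A separably closed field of characteristic `0` contains the roots of unity of every prime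
order. -/
theorem exists_primitiveRoot_of_sepClosed (L : Type) [Field L] [CharZero L] [IsSepClosed L]
    (ℓ : ℕ) (hℓ : ℓ.Prime) : ∃ ζ : Lˣ, IsPrimitiveRoot ζ ℓ := by
  have : NeZero ℓ := ⟨hℓ.ne_zero⟩
  obtain ⟨ζ, hζ⟩ := HasEnoughRootsOfUnity.exists_primitiveRoot L ℓ
  exact ⟨hζ.isUnit (NeZero.ne ℓ) |>.unit, IsPrimitiveRoot.coe_units_iff.mp (by simpa using hζ)⟩

/-- **INERT** for a separably closed coefficient field `L ⊇ ℚ` (e.g. `L = ℚ̄`). -/
theorem inert_sepClosed {L : Type} [Field L] [Algebra ℚ L] [IsSepClosed L]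
    (A : ValuationSubring L) {k : Type} [Field k]
    (π : A →+* k) (hπ : ∀ a : A, ¬ IsUnit a → π a = 0) (hsurj : Function.Surjective π)
    (M N : ℕ) [NeZero M] [NeZero N] (hM : 3 ≤ M) (hMN : M ∣ N) (hNk : (N : k) ≠ 0) :
    V.Inert k M N :=
  haveI : CharZero L := algebraRat.charZero L
  inert A π hπ hsurj (exists_primitiveRoot_of_sepClosed L) M N hM hMN hNk

/-- **INERT** at the level `M * a` (the shape `hIn : V.Inert k M (M * a)` of the packaging
layer). -/
theorem inert_mul {L : Type} [Field L] [Algebra ℚ L] (A : ValuationSubring L) {k : Type} [Field k]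
    (π : A →+* k) (hπ : ∀ a : A, ¬ IsUnit a → π a = 0) (hsurj : Function.Surjective π)
    (hζ : ∀ ℓ : ℕ, ℓ.Prime → ∃ ζ : Lˣ, IsPrimitiveRoot ζ ℓ)
    (M a : ℕ) [NeZero M] [NeZero a] (hM : 3 ≤ M) (hk : ((M * a : ℕ) : k) ≠ 0) :
    V.Inert k M (M * a) :=
  inert A π hπ hsurj hζ M (M * a) hM (Dvd.intro a rfl) hk

/-- **INERT** at the level `M * a` for a separably closed coefficient field. -/
theorem inert_mul_sepClosed {L : Type} [Field L] [Algebra ℚ L] [IsSepClosed L]
    (A : ValuationSubring L) {k : Type} [Field k]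
    (π : A →+* k) (hπ : ∀ a : A, ¬ IsUnit a → π a = 0) (hsurj : Function.Surjective π)
    (M a : ℕ) [NeZero M] [NeZero a] (hM : 3 ≤ M) (hk : ((M * a : ℕ) : k) ≠ 0) :
    V.Inert k M (M * a) :=
  inert_sepClosed A π hπ hsurj M (M * a) hM (Dvd.intro a rfl) hk

end Fermat.Agent.G1.V.InertB
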