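/-
G1-V (helper13, architect's integration check): `Inert k M N` with no hypothesis beyond
`3 ≤ M ∣ N`, `N ≠ 0` in `k` — helper4's `V.inert` fed with the theorems (H2), (H3)
(`GenHyp.h2`, `GenHyp.h3`) and (H4) (`AtkinH4.h4`).
-/
import Mathlib
import Fermat.Agent.G1.V.Inert
import Fermat.Agent.G1.GenHyp
import Fermat.Agent.G1.AtkinH4

set_option autoImplicit false

namespace Fermat.Agent.G1.V.InertU

open Fermat.Agent.G1 Fermat.Agent.G1.V

/-- **INERT, unconditional.**  For `3 ≤ M ∣ N` and the residue field `k` (with `N ≠ 0` in `k`)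
of a valuation ring `A` of a field `L ⊇ ℚ` containing the roots of unity of prime order, the
powers `1, x̄, …, x̄^(n-1)` of `x̄ = x̄_1` are linearly independent over the mod-`p` function
field of `X_0(N)`. -/
theorem inert_uncond {L : Type} [Field L] [Algebra ℚ L] (A : ValuationSubring L) {k : Type}
    [Field k] (π : A →+* k) (hπ : ∀ a : A, ¬ IsUnit a → π a = 0) (hsurj : Function.Surjective π)
    (hζ : ∀ ℓ : ℕ, ℓ.Prime → ∃ ζ : Lˣ, IsPrimitiveRoot ζ ℓ)
    (M N : ℕ) [NeZero M] [NeZero N] (hM : 3 ≤ M) (hMN : M ∣ N) (hNk : (N : k) ≠ 0) :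
    Inert k M N := by
  refine inert A π hπ hsurj hζ M N hM hMN hNk (h2 M) (fun ℓ _ _ _ => h3 M ℓ) ?_
  intro ℓ _ hℓ hℓN
  have hcop : Nat.Coprime ℓ M := by
    rw [Nat.Prime.coprime_iff_not_dvd hℓ]
    exact fun h => hℓN (h.trans hMN)
  refine ⟨ZMod.unitOfCoprime ℓ hcop, Or.inl (ZMod.coe_unitOfCoprime ℓ hcop), ?_⟩
  exact AtkinH4.h4 M N ℓ hMN hℓ hℓN _ (ZMod.coe_unitOfCoprime ℓ hcop) L

end Fermat.Agent.G1.V.InertU
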